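/-
Programme DS (S48), brick B5 (DS-LIFT), part 4.

Transfer of a finite-image representation from an arbitrary field `E` to `ℂ`, keeping all
characteristic polynomials that are defined over a subfield `K` which is embedded in `ℂ`.
Route: the entries generate a finitely generated `K`-algebra; a maximal ideal has residue field
finite over `K` (Zariski's lemma), which embeds into `ℂ` over `K`.
-/
import Mathlib

set_option autoImplicit false

namespace Fermat.Agent.DS.Lift.Complex

open Polynomial

variable {Γ : Type*} [Group Γ] {n : Type*} [Fintype n] [DecidableEq n]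

/-- **Transfer to an algebraically closed field.**  Let `ρ : Γ → GL_n(E)` have finite image, let
`K → E` be a field extension and `φ : K → Ω` an embedding into an algebraically closed field.
There is `ρ' : Γ → GL_n(Ω)` factoring through `ρ` such that every characteristic
polynomial of `ρ` that is defined over `K` is transported to the corresponding polynomial
over `Ω`. -/
theorem exists_rep_of_isAlgClosed {E K Ω : Type*} [Field E] [Field K] [Algebra K E]
    [Field Ω] [IsAlgClosed Ω] (φ : K →+* Ω)
    (ρ : Γ →* GL n E) (hfin : Finite ρ.range) :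
    ∃ ρ' : Γ →* GL n Ω,
      (∀ (γ : Γ) (P : K[X]),
        ((ρ γ : GL n E) : Matrix n n E).charpoly = P.map (algebraMap K E) →
          ((ρ' γ : GL n Ω) : Matrix n n Ω).charpoly = P.map φ) ∧
      (∀ γ γ' : Γ, ρ γ = ρ γ' → ρ' γ = ρ' γ') := by
  classical
  let : Algebra K Ω := φ.toAlgebra
  -- the finite set of all entries
  have hfinset : (Set.range ρ : Set (GL n E)).Finite := by
    have : Finite (Set.range ρ) := hfin
    exact Set.toFinite _
  let T : Set E := ⋃ x ∈ (Set.range ρ : Set (GL n E)),
    Set.range (fun ab : n × n => ((x : GL n E) : Matrix n n E) ab.1 ab.2)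
  have hT : T.Finite := Set.Finite.biUnion hfinset fun x _ => Set.finite_range _
  let S : Subalgebra K E := Algebra.adjoin K T
  have hmem : ∀ (γ : Γ) (a b : n), ((ρ γ : GL n E) : Matrix n n E) a b ∈ S := by
    intro γ a b
    apply Algebra.subset_adjoin
    simp only [T, Set.mem_iUnion, Set.mem_range, exists_prop]
    exact ⟨ρ γ, ⟨γ, rfl⟩, (a, b), rfl⟩
  have hFG : S.FG := by
    have := Subalgebra.fg_adjoin_finset (R := K) hT.toFinset
    simpa [S] using this
  have : Algebra.FiniteType K S := (Subalgebra.fg_iff_finiteType S).mp hFG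
  -- a maximal ideal and its residue field
  obtain ⟨m, hm⟩ := Ideal.exists_maximal S
  have := hm
  let : Field (S ⧸ m) := Ideal.Quotient.field m
  have : Algebra.FiniteType K (S ⧸ m) :=
    Algebra.FiniteType.of_surjective (Ideal.Quotient.mkₐ K m) (Ideal.Quotient.mkₐ_surjective K m)
  have : Module.Finite K (S ⧸ m) := finite_of_finite_type_of_isJacobsonRing K (S ⧸ m)
  have : Algebra.IsAlgebraic K (S ⧸ m) := Algebra.IsAlgebraic.of_finite K (S ⧸ m)
  let ψ0 : (S ⧸ m) →ₐ[K] Ω := IsAlgClosed.lift
  let ψ : S →ₐ[K] Ω := ψ0.comp (Ideal.Quotient.mkₐ K m)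
  -- the representation over `S`
  let MS : Γ → Matrix n n S := fun γ => Matrix.of fun a b => ⟨_, hmem γ a b⟩
  have hMS : ∀ γ, (MS γ).map S.val = ((ρ γ : GL n E) : Matrix n n E) := fun γ => by
    ext a b
    rfl
  have hinj : Function.Injective (fun M : Matrix n n S => M.map S.val) := by
    intro M M' h
    ext a b
    have := congrFun (congrFun h a) b
    exact this
  let ρS : Γ →* Matrix n n S :=
    { toFun := MS
      map_one' := by
        apply hinj
        simp only [hMS, map_one, Units.val_one]
        rw [Matrix.map_one] <;> simp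
      map_mul' := fun γ γ' => by
        apply hinj
        simp only [hMS, map_mul, Units.val_mul]
        rw [Matrix.map_mul, hMS, hMS] }
  let ρ' : Γ →* GL n Ω :=
    (Units.map ((ψ.toRingHom.mapMatrix : Matrix n n S →+* Matrix n n Ω) :
      Matrix n n S →* Matrix n n Ω)).comp ρS.toHomUnits
  have hρ'val : ∀ γ, ((ρ' γ : GL n Ω) : Matrix n n Ω) = (MS γ).map ψ.toRingHom := fun γ => rfl
  refine ⟨ρ', fun γ P hP => ?_, fun γ γ' h => ?_⟩
  · -- characteristic polynomials
    have h1 : (MS γ).charpoly.map S.val.toRingHom = (P.map (algebraMap K S)).map S.val.toRingHom := by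
      rw [← Matrix.charpoly_map, Polynomial.map_map]
      have : (S.val.toRingHom).comp (algebraMap K S) = algebraMap K E := by
        ext x
        rfl
      rw [this, ← hP]
      congr 1
    have h2 : (MS γ).charpoly = P.map (algebraMap K S) :=
      Polynomial.map_injective _ (by exact Subtype.val_injective) h1
    rw [hρ'val, Matrix.charpoly_map, h2, Polynomial.map_map]
    congr 1
    ext x
    exact ψ.commutes x
  · -- factoring through `ρ`
    have hMSeq : MS γ = MS γ' := by
      apply hinj
      simp only [hMS, h]
    apply Units.ext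
    rw [hρ'val, hρ'val, hMSeq]

end Fermat.Agent.DS.Lift.Complex
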