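/-
Programme DS (S48), brick B5 (DS-LIFT), part 6.

Roots of unity in `ℤ_ℓ` (Hensel) and embeddings of cyclotomic fields.
-/
import Mathlib

set_option autoImplicit false

namespace Fermat.Agent.DS.Lift.Hensel

open Polynomial

variable (ℓ : ℕ) [hℓ : Fact ℓ.Prime]

theorem toZMod_eq_zero_iff_norm_lt_one (x : ℤ_[ℓ]) : PadicInt.toZMod x = 0 ↔ ‖x‖ < 1 := by
  rw [← RingHom.mem_ker, PadicInt.ker_toZMod, IsLocalRing.mem_maximalIdeal, PadicInt.mem_nonunits]

/-- **Hensel lifting of roots of unity.** -/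
theorem exists_root_of_unity_lift (m : ℕ) (hm : ¬ ℓ ∣ m) (z0 : ZMod ℓ) (hz0 : z0 ^ m = 1) :
    ∃ ζ : ℤ_[ℓ], ζ ^ m = 1 ∧ PadicInt.toZMod ζ = z0 := by
  have hm0 : m ≠ 0 := by
    rintro rfl
    exact hm (dvd_zero ℓ)
  obtain ⟨a, ha⟩ := ZMod.ringHom_surjective (PadicInt.toZMod (p := ℓ)) z0
  let F : Polynomial ℤ_[ℓ] := X ^ m - 1
  have hFa : F.aeval a = a ^ m - 1 := by simp [F]
  have hF'a : F.derivative.aeval a = (m : ℤ_[ℓ]) * a ^ (m - 1) := by
    simp [F, derivative_X_pow]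
  have hz0unit : z0 ≠ 0 := by
    rintro rfl
    rw [zero_pow hm0] at hz0
    exact zero_ne_one hz0
  have hmℓ : (m : ZMod ℓ) ≠ 0 := by
    rw [Ne, ZMod.natCast_eq_zero_iff]
    exact hm
  have h1 : ‖F.aeval a‖ < 1 := by
    rw [hFa, ← toZMod_eq_zero_iff_norm_lt_one, map_sub, map_pow, ha, hz0, map_one, sub_self]
  have h2 : ‖F.derivative.aeval a‖ = 1 := by
    rw [hF'a]
    have hnot : ¬ ‖(m : ℤ_[ℓ]) * a ^ (m - 1)‖ < 1 := by
      rw [← toZMod_eq_zero_iff_norm_lt_one, map_mul, map_natCast, map_pow, ha]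
      exact mul_ne_zero hmℓ (pow_ne_zero _ hz0unit)
    exact le_antisymm (PadicInt.norm_le_one _) (not_lt.mp hnot)
  have hnorm : ‖F.aeval a‖ < ‖F.derivative.aeval a‖ ^ 2 := by
    rw [h2, one_pow]
    exact h1
  obtain ⟨z, hz, hza, -, -⟩ := hensels_lemma hnorm
  refine ⟨z, ?_, ?_⟩
  · have : F.aeval z = z ^ m - 1 := by simp [F]
    rw [this] at hz
    exact sub_eq_zero.mp hz
  · rw [h2, ← toZMod_eq_zero_iff_norm_lt_one, map_sub, ha] at hza
    exact sub_eq_zero.mp hza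

/-- The Hensel lift of a primitive root of unity is primitive. -/
theorem isPrimitiveRoot_of_toZMod (m : ℕ) (ζ : ℤ_[ℓ]) (hζ : ζ ^ m = 1)
    (h : IsPrimitiveRoot (PadicInt.toZMod ζ) m) : IsPrimitiveRoot ζ m := by
  refine ⟨hζ, fun l hl => ?_⟩
  apply h.dvd_of_pow_eq_one
  rw [← map_pow, hl, map_one]

/-- `ℤ/ℓ` has a primitive `m`-th root of unity when `m ∣ ℓ - 1`. -/
theorem exists_primitiveRoot_zmod (m : ℕ) (hm : m ∣ ℓ - 1) :
    ∃ z : ZMod ℓ, IsPrimitiveRoot z m := by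
  have hcard : Fintype.card (ZMod ℓ)ˣ = ℓ - 1 := ZMod.card_units ℓ
  obtain ⟨g, hg⟩ := IsCyclic.exists_generator (α := (ZMod ℓ)ˣ)
  have hord : orderOf g = ℓ - 1 := by
    rw [← hcard, ← Nat.card_eq_fintype_card]
    exact orderOf_eq_card_of_forall_mem_zpowers hg
  have hprim : IsPrimitiveRoot g (ℓ - 1) := by
    rw [← hord]
    exact IsPrimitiveRoot.orderOf g
  obtain ⟨d, hd⟩ := hm
  have hℓ1 : ℓ - 1 ≠ 0 := by
    have := hℓ.out.two_le
    omega
  have hd0 : d ≠ 0 := by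
    rintro rfl
    rw [mul_zero] at hd
    exact hℓ1 hd
  have hm0 : m ≠ 0 := by
    rintro rfl
    rw [zero_mul] at hd
    exact hℓ1 hd
  have h2 : IsPrimitiveRoot (g ^ d) m := by
    apply hprim.pow (Nat.pos_of_ne_zero hℓ1)
    rw [hd, mul_comm]
  exact ⟨((g ^ d : (ZMod ℓ)ˣ) : ZMod ℓ), IsPrimitiveRoot.coe_units_iff.mpr h2⟩

omit hℓ in
/-- A primitive `m`-th root of unity in a field of characteristic zero is a root of the rational
cyclotomic polynomial. -/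
theorem eval₂_cyclotomic_eq_zero (m : ℕ) [NeZero m] {E : Type*} [Field E] [CharZero E]
    (ζE : E) (hE : IsPrimitiveRoot ζE m) :
    (cyclotomic m ℚ).eval₂ (algebraMap ℚ E) ζE = 0 := by
  have hmpos : 0 < m := Nat.pos_of_ne_zero (NeZero.ne m)
  rw [Polynomial.eval₂_eq_eval_map, map_cyclotomic]
  exact hE.isRoot_cyclotomic hmpos

/-- The abstract cyclotomic field `ℚ[X]/(Φ_m)`. -/
abbrev CycField (m : ℕ) : Type := AdjoinRoot (cyclotomic m ℚ)

omit hℓ in
theorem irreducible_cyclotomic_rat (m : ℕ) [NeZero m] : Irreducible (cyclotomic m ℚ) :=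
  cyclotomic.irreducible_rat (Nat.pos_of_ne_zero (NeZero.ne m))

/-- The field structure on `ℚ[X]/(Φ_m)` (as a definition, not an instance). -/
@[reducible] noncomputable def cycFieldField (m : ℕ) [NeZero m] : Field (CycField m) :=
  haveI : Fact (Irreducible (cyclotomic m ℚ)) := ⟨irreducible_cyclotomic_rat m⟩
  AdjoinRoot.instField

/-- The homomorphism `ℚ[X]/(Φ_m) → E` sending the root to a given primitive root of unity. -/
noncomputable def cycHom (m : ℕ) [NeZero m] {E : Type*} [Field E] [CharZero E]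
    (ζE : E) (hE : IsPrimitiveRoot ζE m) : CycField m →+* E :=
  AdjoinRoot.lift (algebraMap ℚ E) ζE (eval₂_cyclotomic_eq_zero m ζE hE)

omit hℓ in
theorem cycHom_root (m : ℕ) [NeZero m] {E : Type*} [Field E] [CharZero E]
    (ζE : E) (hE : IsPrimitiveRoot ζE m) :
    cycHom m ζE hE (AdjoinRoot.root (cyclotomic m ℚ)) = ζE := by
  simp [cycHom]

end Fermat.Agent.DS.Lift.Hensel
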