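/-
Programme DS (S48), brick B5 (DS-LIFT), part 5.

Elementary linear algebra for matrices of finite order (mostly `2 × 2`): eigenvalues are roots
of unity, the characteristic polynomial splits, unipotent elements of order prime to the
characteristic are trivial, explicit diagonalisation.
-/
import Mathlib

set_option autoImplicit false

namespace Fermat.Agent.DS.Lift.Mat2

open Polynomial Matrix

/-- `(1 + x)^m = 1 + m x` when `x^2 = 0`. -/
theorem one_add_pow_of_sq_zero {A : Type*} [Ring A] (x : A) (hxx : x * x = 0) (m : ℕ) :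
    (1 + x) ^ m = 1 + (m : A) * x := by
  induction m with
  | zero => simp
  | succ m ih =>
    rw [pow_succ, ih, Nat.cast_succ]
    have h1 : (m : A) * x * x = 0 := by rw [mul_assoc, hxx, mul_zero]
    calc (1 + (m : A) * x) * (1 + x) = 1 + x + (m : A) * x + (m : A) * x * x := by noncomm_ring
      _ = 1 + ((m : A) + 1) * x := by rw [h1]; noncomm_ring

section General

variable {n : Type*} [Fintype n] [DecidableEq n] {k : Type*} [Field k]

/-- A unipotent matrix `M` (with `(M - 1)^2 = 0`) of finite order prime to the characteristic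
is the identity. -/
theorem eq_one_of_sq_zero_of_pow (M : Matrix n n k) (m : ℕ) (hm : (m : k) ≠ 0)
    (hN : (M - 1) * (M - 1) = 0) (hpow : M ^ m = 1) : M = 1 := by
  have h1 : M = 1 + (M - 1) := by abel
  have h2 : (1 + (M - 1)) ^ m = 1 + (m : Matrix n n k) * (M - 1) :=
    one_add_pow_of_sq_zero _ hN m
  rw [← h1, hpow] at h2
  have h3 : (m : Matrix n n k) * (M - 1) = 0 := by
    have := h2
    rw [left_eq_add] at this
    exact this
  have h4 : (m : k) • (M - 1) = 0 := by
    rw [← h3]
    ext a b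
    rw [← nsmul_eq_mul, Matrix.smul_apply, Matrix.smul_apply, nsmul_eq_mul, smul_eq_mul]
  rcases smul_eq_zero.mp h4 with h | h
  · exact absurd h hm
  · exact sub_eq_zero.mp h

/-- An eigenvalue of a matrix of order dividing `m` is an `m`-th root of unity. -/
theorem pow_eq_one_of_det_eq_zero (M : Matrix n n k) (m : ℕ) (hpow : M ^ m = 1) (c : k)
    (hc : (Matrix.scalar n c - M).det = 0) : c ^ m = 1 := by
  obtain ⟨v, hv0, hv⟩ := (Matrix.exists_mulVec_eq_zero_iff).mpr hc
  have hMv : M *ᵥ v = c • v := by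
    rw [Matrix.sub_mulVec, sub_eq_zero] at hv
    rw [← hv]
    ext i
    simp [Matrix.mulVec, dotProduct, Matrix.scalar_apply, Matrix.diagonal_apply]
  have hpowv : ∀ j : ℕ, (M ^ j) *ᵥ v = c ^ j • v := by
    intro j
    induction j with
    | zero => simp
    | succ j ih =>
      rw [pow_succ, ← Matrix.mulVec_mulVec, hMv, Matrix.mulVec_smul, ih, smul_smul, pow_succ,
        mul_comm]
  have h1 := hpowv m
  rw [hpow, Matrix.one_mulVec] at h1
  have h2 : (c ^ m - 1) • v = 0 := by
    rw [sub_smul, one_smul, ← h1, sub_self]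
  rcases smul_eq_zero.mp h2 with h | h
  · exact sub_eq_zero.mp h
  · exact absurd h hv0

/-- If a split polynomial with roots in `S` annihilates `M`, some root is an eigenvalue. -/
theorem exists_det_eq_zero_of_aeval_prod [Nonempty n] (M : Matrix n n k) (S : Finset k)
    (h : Polynomial.aeval M (∏ c ∈ S, (X - C c)) = 0) :
    ∃ c ∈ S, (Matrix.scalar n c - M).det = 0 := by
  classical
  by_contra hne
  simp only [not_exists, not_and] at hne
  have key : ∀ T : Finset k, T ⊆ S → IsUnit (Polynomial.aeval M (∏ c ∈ T, (X - C c))) := by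
    intro T
    induction T using Finset.induction_on with
    | empty => intro _; simp
    | insert c T hcT ih =>
      intro hsub
      rw [Finset.prod_insert hcT, map_mul]
      refine IsUnit.mul ?_ (ih (fun x hx => hsub (Finset.mem_insert_of_mem hx)))
      have hcS : c ∈ S := hsub (Finset.mem_insert_self c T)
      have hdet := hne c hcS
      have : Polynomial.aeval M (X - C c) = -(Matrix.scalar n c - M) := by
        simp [Matrix.algebraMap_eq_diagonal, Matrix.scalar_apply]
      rw [this]
      refine IsUnit.neg ?_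
      rw [Matrix.isUnit_iff_isUnit_det]
      exact isUnit_iff_ne_zero.mpr hdet
  have := key S (Finset.Subset.refl S)
  rw [h] at this
  exact not_isUnit_zero this

end General

section Two

variable {k : Type*} [Field k]

/-- **Eigenvalues of `2 × 2` matrices of finite order.** If the field contains a primitive `m`-th
root of unity `ζ` and `M^m = 1`, then `charpoly M = (X - ζ^a)(X - ζ^b)`. -/
theorem charpoly_eq_of_pow_eq_one (M : Matrix (Fin 2) (Fin 2) k) (m : ℕ) [NeZero m] (ζ : k)
    (hζ : IsPrimitiveRoot ζ m) (hpow : M ^ m = 1) :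
    ∃ a b : ℕ, M.charpoly = (X - C (ζ ^ a)) * (X - C (ζ ^ b)) := by
  have hmpos : 0 < m := Nat.pos_of_ne_zero (NeZero.ne m)
  have hann : Polynomial.aeval M (∏ c ∈ nthRootsFinset m (1 : k), (X - C c)) = 0 := by
    rw [← X_pow_sub_one_eq_prod hmpos hζ]
    simp [hpow]
  obtain ⟨c, hcS, hcdet⟩ := exists_det_eq_zero_of_aeval_prod M _ hann
  have hcm : c ^ m = 1 := (mem_nthRootsFinset hmpos 1).mp hcS
  have hroot : c * c - M.trace * c + M.det = 0 := by
    have := Matrix.eval_charpoly M c
    rw [hcdet, Matrix.charpoly_fin_two] at this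
    simp only [eval_add, eval_sub, eval_pow, eval_X, eval_mul, eval_C] at this
    rw [← this]
    ring
  set c' : k := M.trace - c with hc'
  have hchar : M.charpoly = (X - C c) * (X - C c') := by
    rw [Matrix.charpoly_fin_two]
    have hdet : M.det = c * c' := by
      rw [hc']
      linear_combination hroot
    rw [hdet, hc']
    simp only [C_mul, C_sub]
    ring
  have hc'det : (Matrix.scalar (Fin 2) c' - M).det = 0 := by
    rw [← Matrix.eval_charpoly, hchar]
    simp
  have hc'm : c' ^ m = 1 := pow_eq_one_of_det_eq_zero M m hpow c' hc'det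
  obtain ⟨a, -, ha⟩ := hζ.eq_pow_of_pow_eq_one hcm
  obtain ⟨b, -, hb⟩ := hζ.eq_pow_of_pow_eq_one hc'm
  exact ⟨a, b, by rw [ha, hb, hchar]⟩

/-- Explicit diagonalisation of a `2 × 2` matrix with two distinct eigenvalues in the field. -/
theorem exists_conj_diagonal (M : Matrix (Fin 2) (Fin 2) k) (c1 c2 : k) (hne : c1 ≠ c2)
    (h : M.charpoly = (X - C c1) * (X - C c2)) :
    ∃ P : GL (Fin 2) k,
      (P : Matrix (Fin 2) (Fin 2) k) * M * ((P⁻¹ : GL (Fin 2) k) : Matrix (Fin 2) (Fin 2) k) =
        Matrix.diagonal ![c1, c2] := by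
  -- trace and determinant
  have hdet : M.det = c1 * c2 := by
    have := congrArg (Polynomial.eval 0) h
    rw [Matrix.charpoly_fin_two] at this
    simpa using this
  have htr : M.trace = c1 + c2 := by
    have := congrArg (Polynomial.eval 1) h
    rw [Matrix.charpoly_fin_two, hdet] at this
    simp only [eval_add, eval_sub, eval_pow, eval_X, eval_mul, eval_C, one_pow, mul_one] at this
    linear_combination -this
  rw [Matrix.trace_fin_two] at htr
  rw [Matrix.det_fin_two] at hdet
  -- it suffices to find an invertible `Q` with `M Q = Q D`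
  suffices hQ : ∃ Q : Matrix (Fin 2) (Fin 2) k, Q.det ≠ 0 ∧
      M * Q = Q * Matrix.diagonal ![c1, c2] by
    obtain ⟨Q, hQdet, hQ⟩ := hQ
    let Qg : GL (Fin 2) k := Matrix.GeneralLinearGroup.mkOfDetNeZero Q hQdet
    refine ⟨Qg⁻¹, ?_⟩
    have h1 : ((Qg⁻¹ : GL (Fin 2) k) : Matrix (Fin 2) (Fin 2) k) * Q = 1 :=
      Units.inv_mul Qg
    rw [inv_inv]
    change ((Qg⁻¹ : GL (Fin 2) k) : Matrix (Fin 2) (Fin 2) k) * M * Q = _
    rw [mul_assoc, hQ, ← mul_assoc, h1, one_mul]
  by_cases hq : M 0 1 = 0
  · by_cases hr : M 1 0 = 0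
    · -- diagonal matrix
      have h00 : (M 0 0 - c1) * (M 0 0 - c2) = 0 := by
        rw [hq, zero_mul, sub_zero] at hdet
        linear_combination (-1 : k) * hdet + M 0 0 * htr
      rcases mul_eq_zero.mp h00 with h0 | h0
      · have e0 : M 0 0 = c1 := sub_eq_zero.mp h0
        have e1 : M 1 1 = c2 := by rw [e0] at htr; exact add_left_cancel htr
        refine ⟨1, by simp, ?_⟩
        ext i j
        fin_cases i <;> fin_cases j <;> simp [hq, hr, e0, e1]
      · have e0 : M 0 0 = c2 := sub_eq_zero.mp h0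
        have e1 : M 1 1 = c1 := by
          rw [e0] at htr
          linear_combination htr
        refine ⟨!![0, 1; 1, 0], by simp [Matrix.det_fin_two], ?_⟩
        ext i j
        fin_cases i <;> fin_cases j <;> simp [Matrix.mul_apply, Fin.sum_univ_two, hq, hr, e0, e1]
    · -- `r ≠ 0`: eigenvectors `(c - s, r)`
      refine ⟨!![c1 - M 1 1, c2 - M 1 1; M 1 0, M 1 0], ?_, ?_⟩
      · rw [Matrix.det_fin_two_of]
        have : (c1 - M 1 1) * M 1 0 - (c2 - M 1 1) * M 1 0 = (c1 - c2) * M 1 0 := by ring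
        rw [this]
        exact mul_ne_zero (sub_ne_zero.mpr hne) hr
      · ext i j
        fin_cases i <;> fin_cases j <;>
          simp [Matrix.mul_apply, Fin.sum_univ_two, hq]
        · linear_combination c1 * htr - hdet - M 1 0 * hq
        · linear_combination c2 * htr - hdet - M 1 0 * hq
        · ring
        · ring
  · -- `q ≠ 0`: eigenvectors `(q, c - p)`
    refine ⟨!![M 0 1, M 0 1; c1 - M 0 0, c2 - M 0 0], ?_, ?_⟩
    · rw [Matrix.det_fin_two_of]
      have : M 0 1 * (c2 - M 0 0) - M 0 1 * (c1 - M 0 0) = (c2 - c1) * M 0 1 := by ring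
      rw [this]
      exact mul_ne_zero (sub_ne_zero.mpr (Ne.symm hne)) hq
    · ext i j
      fin_cases i <;> fin_cases j <;>
        simp [Matrix.mul_apply, Fin.sum_univ_two]
      · ring
      · ring
      · linear_combination c1 * htr - hdet
      · linear_combination c2 * htr - hdet

/-- A `2 × 2` matrix of finite order `m` with `(M - c)^2 = 0`, where `c^m = 1` and `m` is
invertible in the field, is the scalar `c`. -/
theorem eq_scalar_of_sq_zero_of_pow (M : Matrix (Fin 2) (Fin 2) k) (m : ℕ) (hm : (m : k) ≠ 0)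
    (c : k) (hcm : c ^ m = 1) (hN : (M - Matrix.scalar (Fin 2) c) * (M - Matrix.scalar (Fin 2) c) = 0)
    (hpow : M ^ m = 1) : M = Matrix.scalar (Fin 2) c := by
  have hm0 : m ≠ 0 := by
    rintro rfl
    simp at hm
  have hc0 : c ≠ 0 := by
    rintro rfl
    rw [zero_pow hm0] at hcm
    exact zero_ne_one hcm
  have hsc : Matrix.scalar (Fin 2) c = c • (1 : Matrix (Fin 2) (Fin 2) k) := by
    ext i j
    simp [Matrix.scalar_apply, Matrix.diagonal_apply, Matrix.one_apply]
  set M' : Matrix (Fin 2) (Fin 2) k := c⁻¹ • M with hM'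
  have hMM' : M = c • M' := by rw [hM', smul_smul, mul_inv_cancel₀ hc0, one_smul]
  have h1 : (M' - 1) * (M' - 1) = 0 := by
    have : M' - 1 = c⁻¹ • (M - Matrix.scalar (Fin 2) c) := by
      rw [hsc, smul_sub, smul_smul, inv_mul_cancel₀ hc0, one_smul]
    rw [this, Matrix.smul_mul, Matrix.mul_smul, hN, smul_zero, smul_zero]
  have h2 : M' ^ m = 1 := by
    rw [hM', _root_.smul_pow, hpow, inv_pow, hcm, inv_one, one_smul]
  have h3 : M' = 1 := eq_one_of_sq_zero_of_pow M' m hm h1 h2
  rw [hMM', h3, hsc]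

/-- **Diagonalisation of `2 × 2` matrices of finite order.** -/
theorem exists_conj_diagonal_of_pow_eq_one (M : Matrix (Fin 2) (Fin 2) k) (m : ℕ) [NeZero m]
    (ζ : k) (hζ : IsPrimitiveRoot ζ m) (hpow : M ^ m = 1) :
    ∃ (P : GL (Fin 2) k) (a b : ℕ),
      (P : Matrix (Fin 2) (Fin 2) k) * M * ((P⁻¹ : GL (Fin 2) k) : Matrix (Fin 2) (Fin 2) k) =
        Matrix.diagonal ![ζ ^ a, ζ ^ b] := by
  obtain ⟨a, b, hab⟩ := charpoly_eq_of_pow_eq_one M m ζ hζ hpow
  by_cases hne : ζ ^ a = ζ ^ b
  · -- scalar case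
    have hm : (m : k) ≠ 0 := (hζ.neZero').ne
    have hCH : Polynomial.aeval M M.charpoly = 0 := Matrix.aeval_self_charpoly M
    rw [hab, ← hne, map_mul] at hCH
    have haev : ∀ c : k, Polynomial.aeval M (X - C c) = M - Matrix.scalar (Fin 2) c := by
      intro c
      simp [Matrix.algebraMap_eq_diagonal, Matrix.scalar_apply]
    rw [haev] at hCH
    have hcm : (ζ ^ a) ^ m = 1 := by rw [← pow_mul, mul_comm, pow_mul, hζ.pow_eq_one, one_pow]
    have hM := eq_scalar_of_sq_zero_of_pow M m hm (ζ ^ a) hcm hCH hpow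
    refine ⟨1, a, b, ?_⟩
    rw [← hne, hM]
    ext i j
    fin_cases i <;> fin_cases j <;> simp [Matrix.scalar_apply]
  · obtain ⟨P, hP⟩ := exists_conj_diagonal M (ζ ^ a) (ζ ^ b) hne hab
    exact ⟨P, a, b, hP⟩

end Two

end Fermat.Agent.DS.Lift.Mat2
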