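/-
Programme DS (S48), brick B5 (DS-LIFT), part 1.

Abstract group theory: a surjection of finite groups whose kernel has order prime to the
order of the target has a homomorphic section (Schur–Zassenhaus), and group homomorphisms into
unit groups lift along square-zero thickenings killed by a prime `ℓ` not dividing the group order.
-/
import Mathlib

set_option autoImplicit false

namespace Fermat.Agent.DS.Lift.Section

/-- **Schur–Zassenhaus, section form.**  A surjective homomorphism from a finite group whose kernel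
has order coprime to the order of the target admits a homomorphic section. -/
theorem exists_section_of_coprime {E G : Type*} [Group E] [Group G] [Finite E]
    (π : E →* G) (hπ : Function.Surjective π)
    (hcop : Nat.Coprime (Nat.card π.ker) (Nat.card G)) :
    ∃ s : G →* E, ∀ g, π (s g) = g := by
  classical
  have hidx : π.ker.index = Nat.card G := by
    rw [Subgroup.index_ker, MonoidHom.range_eq_top.mpr hπ]
    exact Subgroup.card_top
  obtain ⟨H, hH⟩ := Subgroup.exists_right_complement'_of_coprime (N := π.ker) (hidx ▸ hcop)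
  -- `π` restricted to `H` is bijective
  let f : H →* G := π.comp H.subtype
  have hinj : Function.Injective f := by
    rw [injective_iff_map_eq_one]
    intro h hh
    have hmem : (h : E) ∈ π.ker ⊓ H := ⟨MonoidHom.mem_ker.mpr hh, h.2⟩
    rw [hH.disjoint.eq_bot, Subgroup.mem_bot] at hmem
    exact Subtype.ext hmem
  have hsurj : Function.Surjective f := by
    intro g
    obtain ⟨e, rfl⟩ := hπ g
    obtain ⟨⟨k, h⟩, hkh, -⟩ := (Subgroup.isComplement'_def.mp hH).existsUnique e
    refine ⟨h, ?_⟩
    have hk : π (k : E) = 1 := MonoidHom.mem_ker.mp k.2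
    simp only at hkh
    rw [← hkh]
    simp only [f, MonoidHom.comp_apply, Subgroup.coe_subtype, map_mul, hk, one_mul]
  let e : H ≃* G := MulEquiv.ofBijective f ⟨hinj, hsurj⟩
  refine ⟨H.subtype.comp e.symm.toMonoidHom, fun g => ?_⟩
  have : f (e.symm g) = g := e.apply_symm_apply g
  simpa [f] using this

/-- In a ring, if `x * x = 0` and `ℓ * x = 0`, then `(1 + x) ^ ℓ = 1`. -/
theorem one_add_pow_eq_one {A : Type*} [Ring A] (ℓ : ℕ) (x : A) (hxx : x * x = 0)
    (hℓ : (ℓ : A) * x = 0) : (1 + x) ^ ℓ = 1 := by
  have key : ∀ m : ℕ, (1 + x) ^ m = 1 + (m : A) * x := by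
    intro m
    induction m with
    | zero => simp
    | succ m ih =>
      rw [pow_succ, ih, Nat.cast_succ]
      have h1 : (m : A) * x * x = 0 := by rw [mul_assoc, hxx, mul_zero]
      calc (1 + (m : A) * x) * (1 + x) = 1 + x + (m : A) * x + (m : A) * x * x := by noncomm_ring
        _ = 1 + ((m : A) + 1) * x := by rw [h1]; noncomm_ring
  rw [key, hℓ, add_zero]

/-- Units lift along a surjective ring homomorphism with square-zero kernel. -/
theorem units_map_surjective {A B : Type*} [Ring A] [Ring B] (π : A →+* B)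
    (hπ : Function.Surjective π) (hsq : ∀ x y : A, π x = 0 → π y = 0 → x * y = 0) :
    Function.Surjective (Units.map (π : A →* B)) := by
  intro u
  obtain ⟨a, ha⟩ := hπ (u : B)
  obtain ⟨a', ha'⟩ := hπ ((u⁻¹ : Bˣ) : B)
  -- `a * a' = 1 + x`, `a' * a = 1 + y` with `x, y` in the kernel
  set x : A := a * a' - 1 with hx
  set y : A := a' * a - 1 with hy
  have hx0 : π x = 0 := by
    simp only [hx, map_sub, map_mul, ha, ha', map_one, Units.mul_inv, sub_self]
  have hy0 : π y = 0 := by
    simp only [hy, map_sub, map_mul, ha, ha', map_one, Units.inv_mul, sub_self]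
  have hxx : x * x = 0 := hsq x x hx0 hx0
  have hyy : y * y = 0 := hsq y y hy0 hy0
  have hr : a * (a' * (1 - x)) = 1 := by
    have : a * a' = 1 + x := by rw [hx]; abel
    rw [← mul_assoc, this]
    calc (1 + x) * (1 - x) = 1 - x * x := by noncomm_ring
      _ = 1 := by rw [hxx, sub_zero]
  have hl : ((1 - y) * a') * a = 1 := by
    have : a' * a = 1 + y := by rw [hy]; abel
    rw [mul_assoc, this]
    calc (1 - y) * (1 + y) = 1 - y * y := by noncomm_ring
      _ = 1 := by rw [hyy, sub_zero]
  -- left and right inverses coincide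
  have hinv : (1 - y) * a' = a' * (1 - x) := by
    calc (1 - y) * a' = (1 - y) * a' * (a * (a' * (1 - x))) := by rw [hr, mul_one]
      _ = ((1 - y) * a' * a) * (a' * (1 - x)) := by noncomm_ring
      _ = a' * (1 - x) := by rw [hl, one_mul]
  refine ⟨⟨a, a' * (1 - x), hr, by rw [← hinv]; exact hl⟩, ?_⟩
  ext
  simpa using ha

/-- **Lifting along a square-zero thickening.**  Let `π : A → B` be a surjective homomorphism of
(not necessarily commutative) rings with `A` finite, whose kernel has square zero and is killed by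
the prime `ℓ`.  If `G` is a finite group of order prime to `ℓ`, every homomorphism `G → Bˣ` lifts
to a homomorphism `G → Aˣ`. -/
theorem exists_lift_units {A B G : Type*} [Ring A] [Ring B] [Finite A] [Group G] [Finite G]
    (ℓ : ℕ) [hℓp : Fact ℓ.Prime] (hG : ¬ ℓ ∣ Nat.card G) (π : A →+* B)
    (hπ : Function.Surjective π) (hsq : ∀ x y : A, π x = 0 → π y = 0 → x * y = 0)
    (hℓ : ∀ x : A, π x = 0 → (ℓ : A) * x = 0) (ρ : G →* Bˣ) :
    ∃ ρ' : G →* Aˣ, ∀ g, Units.map (π : A →* B) (ρ' g) = ρ g := by
  classical
  -- the pull-back group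
  let E : Subgroup (G × Aˣ) :=
    (ρ.comp (MonoidHom.fst G Aˣ)).eqLocus ((Units.map (π : A →* B)).comp (MonoidHom.snd G Aˣ))
  have hE : ∀ e : E, ρ (e : G × Aˣ).1 = Units.map (π : A →* B) (e : G × Aˣ).2 := fun e => e.2
  let p1 : E →* G := (MonoidHom.fst G Aˣ).comp E.subtype
  let p2 : E →* Aˣ := (MonoidHom.snd G Aˣ).comp E.subtype
  have hp1 : Function.Surjective p1 := by
    intro g
    obtain ⟨a, ha⟩ := units_map_surjective π hπ hsq (ρ g)
    exact ⟨⟨(g, a), by simp [E, MonoidHom.eqLocus, ha]⟩, rfl⟩
  -- the kernel of `p1` is an `ℓ`-group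
  have hker : IsPGroup ℓ p1.ker := by
    intro e
    refine ⟨1, ?_⟩
    have he1 : ((e : E) : G × Aˣ).1 = 1 := MonoidHom.mem_ker.mp e.2
    have he2 : Units.map (π : A →* B) ((e : E) : G × Aˣ).2 = 1 := by
      rw [← hE, he1, map_one]
    set a : Aˣ := ((e : E) : G × Aˣ).2 with ha
    have hx0 : π ((a : A) - 1) = 0 := by
      have : π (a : A) = 1 := by
        have := congrArg (fun u : Bˣ => (u : B)) he2
        simpa using this
      rw [map_sub, this, map_one, sub_self]
    have hpow : (a : A) ^ ℓ = 1 := by
      have h1 : (a : A) = 1 + ((a : A) - 1) := by abel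
      rw [h1]
      exact one_add_pow_eq_one ℓ _ (hsq _ _ hx0 hx0) (hℓ _ hx0)
    have ha' : a ^ ℓ = 1 := by
      ext
      simpa using hpow
    rw [pow_one]
    apply Subtype.ext
    apply Subtype.ext
    refine Prod.ext ?_ ?_
    · simp [he1]
    · simpa [ha] using ha'
  obtain ⟨m, hm⟩ := hker.exists_card_eq
  have hcop : Nat.Coprime (Nat.card p1.ker) (Nat.card G) := by
    rw [hm]
    exact Nat.Coprime.pow_left m ((Nat.Prime.coprime_iff_not_dvd hℓp.out).mpr hG)
  obtain ⟨s, hs⟩ := exists_section_of_coprime p1 hp1 hcop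
  refine ⟨p2.comp s, fun g => ?_⟩
  have := hE (s g)
  have h1 : ((s g : E) : G × Aˣ).1 = g := hs g
  rw [h1] at this
  exact this.symm

end Fermat.Agent.DS.Lift.Section
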