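/-
Programme DS (S48), brick B5 (DS-LIFT), part 2.

The tower `GL_n(ℤ/ℓ^(k+1))`: a homomorphism `G → GL_n(ℤ/ℓ)` from a finite group of order prime to
`ℓ` lifts to a compatible system of homomorphisms `G → GL_n(ℤ/ℓ^(k+1))`.
-/
import Mathlib
import Fermat.Agent.DS.Lift.Section

set_option autoImplicit false

namespace Fermat.Agent.DS.Lift.Tower

open Fermat.Agent.DS.Lift.Section

variable (ℓ : ℕ)

/-- The reduction map `ℤ/ℓ^(j+1) → ℤ/ℓ^j`. -/
noncomputable def red (j : ℕ) : ZMod (ℓ ^ (j + 1)) →+* ZMod (ℓ ^ j) :=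
  ZMod.castHom (pow_dvd_pow ℓ (Nat.le_succ j)) (ZMod (ℓ ^ j))

theorem red_surjective (j : ℕ) : Function.Surjective (red ℓ j) :=
  ZMod.ringHom_surjective _

/-- An element of the kernel of the reduction map is a multiple of `ℓ^j`. -/
theorem exists_eq_mul_of_red_eq_zero [NeZero ℓ] (j : ℕ) (x : ZMod (ℓ ^ (j + 1)))
    (hx : red ℓ j x = 0) : ∃ c : ZMod (ℓ ^ (j + 1)), x = ((ℓ ^ j : ℕ) : ZMod (ℓ ^ (j + 1))) * c := by
  have : NeZero (ℓ ^ (j + 1)) := ⟨pow_ne_zero _ (NeZero.ne ℓ)⟩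
  have h1 : ((x.val : ℕ) : ZMod (ℓ ^ j)) = 0 := by
    have := hx
    rw [red, ZMod.castHom_apply, ZMod.cast_eq_val] at this
    exact this
  rw [ZMod.natCast_eq_zero_iff] at h1
  obtain ⟨c, hc⟩ := h1
  refine ⟨(c : ZMod (ℓ ^ (j + 1))), ?_⟩
  rw [← ZMod.natCast_zmod_val x, hc]
  push_cast
  rfl

theorem red_sq_zero [NeZero ℓ] (j : ℕ) (x y : ZMod (ℓ ^ (j + 1 + 1)))
    (hx : red ℓ (j + 1) x = 0) (hy : red ℓ (j + 1) y = 0) : x * y = 0 := by
  obtain ⟨c, rfl⟩ := exists_eq_mul_of_red_eq_zero ℓ (j + 1) x hx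
  obtain ⟨d, rfl⟩ := exists_eq_mul_of_red_eq_zero ℓ (j + 1) y hy
  have h0 : ((ℓ ^ (j + 1) : ℕ) : ZMod (ℓ ^ (j + 1 + 1))) * ((ℓ ^ (j + 1) : ℕ) : ZMod _) = 0 := by
    rw [← Nat.cast_mul, ZMod.natCast_eq_zero_iff, ← pow_add]
    exact pow_dvd_pow ℓ (by omega)
  calc _ = (((ℓ ^ (j + 1) : ℕ) : ZMod (ℓ ^ (j + 1 + 1))) * ((ℓ ^ (j + 1) : ℕ) : ZMod _)) * (c * d) := by
        ring
    _ = 0 := by rw [h0, zero_mul]

theorem red_ell_mul [NeZero ℓ] (j : ℕ) (x : ZMod (ℓ ^ (j + 1)))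
    (hx : red ℓ j x = 0) : (ℓ : ZMod (ℓ ^ (j + 1))) * x = 0 := by
  obtain ⟨c, rfl⟩ := exists_eq_mul_of_red_eq_zero ℓ j x hx
  have h0 : (ℓ : ZMod (ℓ ^ (j + 1))) * ((ℓ ^ j : ℕ) : ZMod (ℓ ^ (j + 1))) = 0 := by
    rw [← Nat.cast_mul, ZMod.natCast_eq_zero_iff, pow_succ, mul_comm]
  rw [← mul_assoc, h0, zero_mul]

section Matrix

variable {n : Type*} [Fintype n] [DecidableEq n]

/-- A surjective ring homomorphism induces a surjection on matrix rings. -/
theorem mapMatrix_surjective {R S : Type*} [Semiring R] [Semiring S] (r : R →+* S)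
    (hr : Function.Surjective r) :
    Function.Surjective (r.mapMatrix : Matrix n n R →+* Matrix n n S) := by
  intro M
  refine ⟨fun a b => Classical.choose (hr (M a b)), ?_⟩
  ext a b
  simp only [RingHom.mapMatrix_apply, Matrix.map_apply]
  exact Classical.choose_spec (hr (M a b))

theorem mapMatrix_sq_zero {R S : Type*} [CommRing R] [CommRing S] (r : R →+* S)
    (hsq : ∀ x y : R, r x = 0 → r y = 0 → x * y = 0) (X Y : Matrix n n R)
    (hX : r.mapMatrix X = 0) (hY : r.mapMatrix Y = 0) : X * Y = 0 := by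
  have hX' : ∀ a b, r (X a b) = 0 := fun a b => by
    have := congrFun (congrFun hX a) b
    simpa using this
  have hY' : ∀ a b, r (Y a b) = 0 := fun a b => by
    have := congrFun (congrFun hY a) b
    simpa using this
  ext a b
  rw [Matrix.mul_apply]
  exact Finset.sum_eq_zero fun c _ => hsq _ _ (hX' a c) (hY' c b)

theorem mapMatrix_natCast_mul {R S : Type*} [CommRing R] [CommRing S] (r : R →+* S) (m : ℕ)
    (hm : ∀ x : R, r x = 0 → (m : R) * x = 0) (X : Matrix n n R)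
    (hX : r.mapMatrix X = 0) : (m : Matrix n n R) * X = 0 := by
  have hX' : ∀ a b, r (X a b) = 0 := fun a b => by
    have := congrFun (congrFun hX a) b
    simpa using this
  ext a b
  rw [← nsmul_eq_mul, Matrix.smul_apply, nsmul_eq_mul, Matrix.zero_apply]
  exact hm _ (hX' a b)

end Matrix

end Fermat.Agent.DS.Lift.Tower
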