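/-
Programme DS (S48), brick B5 (DS-LIFT), part 3.

Lifting to `ℤ_ℓ`: a homomorphism `G → GL_n(𝔽_ℓ)` from a finite group of order prime to `ℓ`
lifts to a homomorphism `G → GL_n(ℤ_ℓ)`.
-/
import Mathlib
import Fermat.Agent.DS.Lift.Tower

set_option autoImplicit false

namespace Fermat.Agent.DS.Lift.Padic

open Fermat.Agent.DS.Lift.Section Fermat.Agent.DS.Lift.Tower

variable (ℓ : ℕ) [hℓ : Fact ℓ.Prime]

section Limit

/-- The ring of compatible sequences in `∏ ℤ/ℓ^j`. -/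
def limRing : Subring (∀ j : ℕ, ZMod (ℓ ^ j)) where
  carrier := {x | ∀ j, red ℓ j (x (j + 1)) = x j}
  mul_mem' := by
    intro x y hx hy j
    simp only [Pi.mul_apply, map_mul, hx j, hy j]
  one_mem' := by
    intro j
    simp only [Pi.one_apply, map_one]
  add_mem' := by
    intro x y hx hy j
    simp only [Pi.add_apply, map_add, hx j, hy j]
  zero_mem' := by
    intro j
    simp only [Pi.zero_apply, map_zero]
  neg_mem' := by
    intro x hx j
    simp only [Pi.neg_apply, map_neg, hx j]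

/-- Evaluation of a compatible sequence at level `j`. -/
def ev (j : ℕ) : limRing ℓ →+* ZMod (ℓ ^ j) :=
  (Pi.evalRingHom (fun j : ℕ => ZMod (ℓ ^ j)) j).comp (limRing ℓ).subtype

omit hℓ in
theorem ev_apply (j : ℕ) (x : limRing ℓ) : ev ℓ j x = (x : ∀ j : ℕ, ZMod (ℓ ^ j)) j := rfl

omit hℓ in
theorem red_ev (j : ℕ) (x : limRing ℓ) : red ℓ j (ev ℓ (j + 1) x) = ev ℓ j x := x.2 j

omit hℓ in
theorem ev_compat (k1 k2 : ℕ) (hk : k1 ≤ k2) :
    (ZMod.castHom (pow_dvd_pow ℓ hk) (ZMod (ℓ ^ k1))).comp (ev ℓ k2) = ev ℓ k1 := by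
  induction k2, hk using Nat.le_induction with
  | base => simp
  | succ k2 hk ih =>
    rw [← ih, ← ZMod.castHom_comp (pow_dvd_pow ℓ hk) (pow_dvd_pow ℓ (Nat.le_succ k2)),
      RingHom.comp_assoc]
    congr 1
    ext x
    exact red_ev ℓ k2 x

/-- The canonical map from compatible sequences to `ℤ_ℓ`. -/
noncomputable def toPadic : limRing ℓ →+* ℤ_[ℓ] := PadicInt.lift (ev_compat ℓ)

theorem toZModPow_toPadic (j : ℕ) (x : limRing ℓ) :
    PadicInt.toZModPow j (toPadic ℓ x) = ev ℓ j x := by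
  have := PadicInt.lift_spec (ev_compat ℓ) j
  exact congrArg (fun f => f x) this

end Limit

/-- `toZMod` is `toZModPow 1` up to the identification `ℤ/ℓ^1 = ℤ/ℓ`. -/
theorem toZMod_eq (x : ℤ_[ℓ]) :
    PadicInt.toZMod x = ZMod.ringEquivCongr (pow_one ℓ) (PadicInt.toZModPow 1 x) := by
  have : (PadicInt.toZMod : ℤ_[ℓ] →+* ZMod ℓ) =
      ((ZMod.ringEquivCongr (pow_one ℓ)) : ZMod (ℓ ^ 1) →+* ZMod ℓ).comp (PadicInt.toZModPow 1) := by
    apply ZMod.ringHom_eq_of_ker_eq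
    rw [PadicInt.ker_toZMod, PadicInt.maximalIdeal_eq_span_p]
    ext y
    rw [RingHom.mem_ker, RingHom.comp_apply]
    have h1 : ((ZMod.ringEquivCongr (pow_one ℓ) : ZMod (ℓ ^ 1) →+* ZMod ℓ)
        (PadicInt.toZModPow 1 y) = 0) ↔ PadicInt.toZModPow 1 y = 0 := by
      constructor
      · intro h
        exact (ZMod.ringEquivCongr (pow_one ℓ)).injective (by simpa using h)
      · intro h
        rw [h, map_zero]
    rw [h1, ← RingHom.mem_ker, PadicInt.ker_toZModPow, pow_one]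
  exact congrArg (fun f => f x) this

omit hℓ in
theorem ringEquivCongr_cancel (a b : ℕ) (h1 : a = b) (h2 : b = a) (x : ZMod a) :
    ZMod.ringEquivCongr h2 (ZMod.ringEquivCongr h1 x) = x := by
  subst h1
  simp

section Main

variable {n : Type*} [Fintype n] [DecidableEq n] {G : Type*} [Group G] [Finite G]

/-- One step of the tower. -/
theorem exists_step (hG : ¬ ℓ ∣ Nat.card G) (k : ℕ)
    (ρ : G →* (Matrix n n (ZMod (ℓ ^ (k + 1))))ˣ) :
    ∃ ρ' : G →* (Matrix n n (ZMod (ℓ ^ (k + 1 + 1))))ˣ,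
      ∀ g, Units.map (((red ℓ (k + 1)).mapMatrix :
        Matrix n n (ZMod (ℓ ^ (k + 1 + 1))) →+* Matrix n n (ZMod (ℓ ^ (k + 1)))) :
          Matrix n n (ZMod (ℓ ^ (k + 1 + 1))) →* Matrix n n (ZMod (ℓ ^ (k + 1)))) (ρ' g) = ρ g := by
  have : NeZero ℓ := ⟨hℓ.out.ne_zero⟩
  have : NeZero (ℓ ^ (k + 1 + 1)) := ⟨pow_ne_zero _ hℓ.out.ne_zero⟩
  exact exists_lift_units ℓ hG (red ℓ (k + 1)).mapMatrix
    (mapMatrix_surjective _ (red_surjective ℓ _))
    (mapMatrix_sq_zero _ (red_sq_zero ℓ k))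
    (fun X hX => mapMatrix_natCast_mul (red ℓ (k + 1)) ℓ (red_ell_mul ℓ (k + 1)) X hX) ρ

/-- The tower of lifts. -/
noncomputable def tower (hG : ¬ ℓ ∣ Nat.card G) (ρ0 : G →* (Matrix n n (ZMod (ℓ ^ (0 + 1))))ˣ) :
    (k : ℕ) → (G →* (Matrix n n (ZMod (ℓ ^ (k + 1))))ˣ)
  | 0 => ρ0
  | k + 1 => Classical.choose (exists_step ℓ hG k (tower hG ρ0 k))

theorem tower_spec (hG : ¬ ℓ ∣ Nat.card G) (ρ0 : G →* (Matrix n n (ZMod (ℓ ^ (0 + 1))))ˣ)
    (k : ℕ) (g : G) :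
    Units.map (((red ℓ (k + 1)).mapMatrix :
        Matrix n n (ZMod (ℓ ^ (k + 1 + 1))) →+* Matrix n n (ZMod (ℓ ^ (k + 1)))) :
          Matrix n n (ZMod (ℓ ^ (k + 1 + 1))) →* Matrix n n (ZMod (ℓ ^ (k + 1))))
      (tower ℓ hG ρ0 (k + 1) g) = tower ℓ hG ρ0 k g :=
  Classical.choose_spec (exists_step ℓ hG k (tower ℓ hG ρ0 k)) g

/-- The matrices at every level `j` (level `0` lives over the zero ring). -/
noncomputable def level (hG : ¬ ℓ ∣ Nat.card G) (ρ0 : G →* (Matrix n n (ZMod (ℓ ^ (0 + 1))))ˣ) :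
    (j : ℕ) → G → Matrix n n (ZMod (ℓ ^ j))
  | 0 => fun _ => 0
  | k + 1 => fun g => ((tower ℓ hG ρ0 k g : (Matrix n n (ZMod (ℓ ^ (k + 1))))ˣ) :
      Matrix n n (ZMod (ℓ ^ (k + 1))))

omit hℓ [Fintype n] [DecidableEq n] in
theorem subsingleton_level_zero : Subsingleton (Matrix n n (ZMod (ℓ ^ 0))) := by
  have : Subsingleton (ZMod (ℓ ^ 0)) := by
    rw [pow_zero]
    infer_instance
  infer_instance

theorem level_one (hG : ¬ ℓ ∣ Nat.card G) (ρ0 : G →* (Matrix n n (ZMod (ℓ ^ (0 + 1))))ˣ)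
    (j : ℕ) : level ℓ hG ρ0 j 1 = 1 := by
  cases j with
  | zero => exact (subsingleton_level_zero ℓ).elim _ _
  | succ k => simp [level]

theorem level_mul (hG : ¬ ℓ ∣ Nat.card G) (ρ0 : G →* (Matrix n n (ZMod (ℓ ^ (0 + 1))))ˣ)
    (j : ℕ) (g h : G) : level ℓ hG ρ0 j (g * h) = level ℓ hG ρ0 j g * level ℓ hG ρ0 j h := by
  cases j with
  | zero => exact (subsingleton_level_zero ℓ).elim _ _
  | succ k => simp [level]

theorem level_compat (hG : ¬ ℓ ∣ Nat.card G) (ρ0 : G →* (Matrix n n (ZMod (ℓ ^ (0 + 1))))ˣ)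
    (j : ℕ) (g : G) (a b : n) :
    red ℓ j (level ℓ hG ρ0 (j + 1) g a b) = level ℓ hG ρ0 j g a b := by
  cases j with
  | zero =>
    have : Subsingleton (ZMod (ℓ ^ 0)) := by
      rw [pow_zero]
      infer_instance
    exact Subsingleton.elim _ _
  | succ k =>
    have := congrArg (fun u : (Matrix n n (ZMod (ℓ ^ (k + 1))))ˣ =>
      (u : Matrix n n (ZMod (ℓ ^ (k + 1)))) a b) (tower_spec ℓ hG ρ0 k g)
    simpa [level] using this

/-- The limit entries in the ring of compatible sequences. -/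
noncomputable def limEntry (hG : ¬ ℓ ∣ Nat.card G)
    (ρ0 : G →* (Matrix n n (ZMod (ℓ ^ (0 + 1))))ˣ) (g : G) (a b : n) : limRing ℓ :=
  ⟨fun j => level ℓ hG ρ0 j g a b, fun j => level_compat ℓ hG ρ0 j g a b⟩

theorem ev_limEntry (hG : ¬ ℓ ∣ Nat.card G)
    (ρ0 : G →* (Matrix n n (ZMod (ℓ ^ (0 + 1))))ˣ) (j : ℕ) (g : G) (a b : n) :
    ev ℓ j (limEntry ℓ hG ρ0 g a b) = level ℓ hG ρ0 j g a b := rfl

omit hℓ in
theorem limRing_ext {x y : limRing ℓ} (h : ∀ j, ev ℓ j x = ev ℓ j y) : x = y := by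
  apply Subtype.ext
  funext j
  exact h j

/-- The limit matrix over the ring of compatible sequences. -/
noncomputable def limMatrix (hG : ¬ ℓ ∣ Nat.card G)
    (ρ0 : G →* (Matrix n n (ZMod (ℓ ^ (0 + 1))))ˣ) : G →* Matrix n n (limRing ℓ) where
  toFun g := Matrix.of fun a b => limEntry ℓ hG ρ0 g a b
  map_one' := by
    refine Matrix.ext fun a b => ?_
    apply limRing_ext
    intro j
    rw [Matrix.of_apply, ev_limEntry, level_one]
    by_cases hab : a = b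
    · subst hab
      simp
    · simp [Matrix.one_apply_ne hab]
  map_mul' := by
    intro g h
    refine Matrix.ext fun a b => ?_
    apply limRing_ext
    intro j
    rw [Matrix.of_apply, ev_limEntry, level_mul, Matrix.mul_apply, Matrix.mul_apply, map_sum]
    simp only [map_mul, Matrix.of_apply, ev_limEntry]

theorem ev_limMatrix (hG : ¬ ℓ ∣ Nat.card G)
    (ρ0 : G →* (Matrix n n (ZMod (ℓ ^ (0 + 1))))ˣ) (j : ℕ) (g : G) (a b : n) :
    ev ℓ j (limMatrix ℓ hG ρ0 g a b) = level ℓ hG ρ0 j g a b := rfl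

/-- **Lifting to `ℤ_ℓ`.**  A homomorphism `G → GL_n(𝔽_ℓ)` from a finite group of order prime to `ℓ`
lifts to `GL_n(ℤ_ℓ)`. -/
theorem exists_lift_padicInt (hG : ¬ ℓ ∣ Nat.card G) (ρbar : G →* GL n (ZMod ℓ)) :
    ∃ ρ : G →* GL n ℤ_[ℓ], ∀ g,
      ((ρ g : GL n ℤ_[ℓ]) : Matrix n n ℤ_[ℓ]).map PadicInt.toZMod =
        ((ρbar g : GL n (ZMod ℓ)) : Matrix n n (ZMod ℓ)) := by
  classical
  -- transport to level `ℓ^(0+1)`
  let e : ZMod ℓ ≃+* ZMod (ℓ ^ (0 + 1)) := ZMod.ringEquivCongr (by simp)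
  let ρ0 : G →* (Matrix n n (ZMod (ℓ ^ (0 + 1))))ˣ :=
    (Units.map (((e : ZMod ℓ →+* ZMod (ℓ ^ (0 + 1))).mapMatrix :
      Matrix n n (ZMod ℓ) →+* Matrix n n (ZMod (ℓ ^ (0 + 1)))) :
        Matrix n n (ZMod ℓ) →* Matrix n n (ZMod (ℓ ^ (0 + 1))))).comp ρbar
  let M := limMatrix ℓ hG ρ0
  let ρ : G →* GL n ℤ_[ℓ] :=
    (Units.map (((toPadic ℓ).mapMatrix : Matrix n n (limRing ℓ) →+* Matrix n n ℤ_[ℓ]) :
      Matrix n n (limRing ℓ) →* Matrix n n ℤ_[ℓ])).comp M.toHomUnits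
  refine ⟨ρ, fun g => ?_⟩
  ext a b
  have h1 : ((ρ g : GL n ℤ_[ℓ]) : Matrix n n ℤ_[ℓ]) a b = toPadic ℓ (M g a b) := rfl
  rw [Matrix.map_apply, h1, toZMod_eq, toZModPow_toPadic, ev_limMatrix]
  have h2 : level ℓ hG ρ0 1 g a b = e (((ρbar g : GL n (ZMod ℓ)) : Matrix n n (ZMod ℓ)) a b) := rfl
  rw [h2]
  exact ringEquivCongr_cancel _ _ _ _ _

/-- **Lifting to `ℤ_ℓ`, general source.**  A homomorphism `Γ → GL_n(𝔽_ℓ)` from an arbitrary group
whose image has order prime to `ℓ` lifts to `GL_n(ℤ_ℓ)`, through the image. -/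
theorem exists_lift_padicInt_of_range {Γ : Type*} [Group Γ] (ρbar : Γ →* GL n (ZMod ℓ))
    (hΓ : ¬ ℓ ∣ Nat.card ρbar.range) :
    ∃ ρ : Γ →* GL n ℤ_[ℓ],
      (∀ γ, ((ρ γ : GL n ℤ_[ℓ]) : Matrix n n ℤ_[ℓ]).map PadicInt.toZMod =
        ((ρbar γ : GL n (ZMod ℓ)) : Matrix n n (ZMod ℓ))) ∧
      (∀ γ γ', ρbar γ = ρbar γ' → ρ γ = ρ γ') ∧
      Finite ρ.range := by
  classical
  have : Finite (GL n (ZMod ℓ)) := inferInstance
  have : Finite ρbar.range := inferInstance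
  obtain ⟨r, hr⟩ := exists_lift_padicInt ℓ hΓ ρbar.range.subtype
  refine ⟨r.comp ρbar.rangeRestrict, fun γ => ?_, fun γ γ' h => ?_, ?_⟩
  · exact hr (ρbar.rangeRestrict γ)
  · have : ρbar.rangeRestrict γ = ρbar.rangeRestrict γ' := Subtype.ext h
    simp only [MonoidHom.comp_apply, this]
  · have hle : (r.comp ρbar.rangeRestrict).range ≤ r.range := by
      rintro _ ⟨γ, rfl⟩
      exact ⟨ρbar.rangeRestrict γ, rfl⟩
    have : Finite r.range := inferInstance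
    exact Finite.of_injective (Subgroup.inclusion hle) (Subgroup.inclusion_injective hle)

end Main

end Fermat.Agent.DS.Lift.Padic
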