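/-
Programme DS (S48), brick B5' (DS-LIFT), final glue.

A finite group `G` with `#G ∣ ℓ - 1` inside `GL₂(k)`, `k` a field of characteristic `ℓ`, lifts to
`GL₂(ℂ)` compatibly with a given residue map `φ : ℤ̄ → k` on traces and determinants.
This file proves the statement assuming that `G` is conjugate into `GL₂(𝔽_ℓ)` (brick BD-lite).
-/
import Mathlib
import Fermat.Agent.DS.Lift.Padic
import Fermat.Agent.DS.Lift.Complex
import Fermat.Agent.DS.Lift.Mat2
import Fermat.Agent.DS.Lift.Kernel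
import Fermat.Agent.DS.Lift.Hensel

set_option autoImplicit false

namespace Fermat.Agent.DS.Lift.Main

open Polynomial Matrix
open Fermat.Agent.DS.Lift

/-- **Primitive roots of unity reduce to primitive roots of unity** modulo a prime not dividing
the order. -/
theorem isPrimitiveRoot_map {R k : Type*} [CommRing R] [IsDomain R] [Field k] (φ : R →+* k)
    (m : ℕ) (hm : (m : k) ≠ 0) (ξ : R) (hξ : IsPrimitiveRoot ξ m) : IsPrimitiveRoot (φ ξ) m := by
  have hm0 : m ≠ 0 := by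
    rintro rfl
    simp at hm
  refine ⟨by rw [← map_pow, hξ.pow_eq_one, map_one], fun l hl => ?_⟩
  set μ : R := ξ ^ l with hμ
  have hμm : μ ^ m = 1 := by rw [hμ, ← pow_mul, mul_comm, pow_mul, hξ.pow_eq_one, one_pow]
  have hφμ : φ μ = 1 := by rw [hμ, map_pow, hl]
  have hord : orderOf μ ∣ m := orderOf_dvd_of_pow_eq_one hμm
  have hprim : IsPrimitiveRoot μ (orderOf μ) := IsPrimitiveRoot.orderOf μ
  have hordpos : 0 < orderOf μ := Nat.pos_of_dvd_of_pos hord (Nat.pos_of_ne_zero hm0)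
  obtain ⟨n', hn'⟩ : ∃ n', orderOf μ = n' + 1 := ⟨orderOf μ - 1, by omega⟩
  rw [hn'] at hprim
  have hprod := hprim.prod_one_sub_pow_eq_order
  have hφprod := congrArg φ hprod
  rw [map_prod] at hφprod
  by_cases hn0 : n' = 0
  · -- order one: `μ = 1`
    have : μ = 1 := by
      have := hprim.pow_eq_one
      rw [hn0, zero_add, pow_one] at this
      exact this
    exact hξ.dvd_of_pow_eq_one l this
  · exfalso
    have hzero : ∏ c ∈ Finset.range n', φ (1 - μ ^ (c + 1)) = 0 := by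
      apply Finset.prod_eq_zero (Finset.mem_range.mpr (Nat.pos_of_ne_zero hn0))
      rw [map_sub, map_one, map_pow, hφμ, one_pow, sub_self]
    rw [hzero] at hφprod
    have hcast : ((n' + 1 : ℕ) : k) = 0 := by
      rw [hφprod]
      push_cast
      simp
    obtain ⟨e, he⟩ := hord
    apply hm
    rw [he, hn', Nat.cast_mul, hcast, zero_mul]

/-- Trace and determinant from a split characteristic polynomial. -/
theorem trace_det_of_charpoly {k : Type*} [Field k] (M : Matrix (Fin 2) (Fin 2) k) (u v : k)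
    (h : M.charpoly = (X - C u) * (X - C v)) : M.trace = u + v ∧ M.det = u * v := by
  have hdet : M.det = u * v := by
    have := congrArg (Polynomial.eval 0) h
    rw [Matrix.charpoly_fin_two] at this
    simpa using this
  refine ⟨?_, hdet⟩
  have := congrArg (Polynomial.eval 1) h
  rw [Matrix.charpoly_fin_two, hdet] at this
  simp only [eval_add, eval_sub, eval_pow, eval_X, eval_mul, eval_C, one_pow, mul_one] at this
  linear_combination -this

local notation "ℤbar" => integralClosure ℤ ℂ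

/-- Coercion of `GL.map f g` to matrices. -/
theorem coe_map_eq {R S : Type*} [CommRing R] [CommRing S] (f : R →+* S) (g : GL (Fin 2) R) :
    ((Matrix.GeneralLinearGroup.map f g : GL (Fin 2) S) : Matrix (Fin 2) (Fin 2) S) =
      (g : Matrix (Fin 2) (Fin 2) R).map f := rfl

theorem trace_map_eq {R S : Type*} [CommRing R] [CommRing S] (f : R →+* S)
    (M : Matrix (Fin 2) (Fin 2) R) : (M.map f).trace = f M.trace := by
  simp [Matrix.trace_fin_two]

theorem det_map_eq {R S : Type*} [CommRing R] [CommRing S] (f : R →+* S)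
    (M : Matrix (Fin 2) (Fin 2) R) : (M.map f).det = f M.det := by
  simp [Matrix.det_fin_two]

theorem map_quad {A B : Type*} [CommRing A] [CommRing B] (f : A →+* B) (x : A) (a b : ℕ) :
    ((X - C (x ^ a)) * (X - C (x ^ b))).map f = (X - C ((f x) ^ a)) * (X - C ((f x) ^ b)) := by
  simp

/-- **B5', modulo conjugation into `GL₂(𝔽_ℓ)`.** -/
theorem primeToEllLift_of_conj (ℓ : ℕ) [hℓ : Fact ℓ.Prime] {k : Type*} [Field k] [CharP k ℓ]
    (φ : ℤbar →+* k) {G : Type*} [Group G] [Finite G] (hdvd : Nat.card G ∣ ℓ - 1)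
    (r : G →* GL (Fin 2) k)
    (hBD : ∃ (P : GL (Fin 2) k) (r0 : G →* GL (Fin 2) (ZMod ℓ)),
      ∀ g, P * r g * P⁻¹ =
        Matrix.GeneralLinearGroup.map (ZMod.castHom (dvd_refl ℓ) k) (r0 g)) :
    ∃ R : G →* GL (Fin 2) ℂ, (∀ g, R g = 1 ↔ r g = 1) ∧
      ∀ g, ∃ t d : ℤbar,
        ((R g : GL (Fin 2) ℂ) : Matrix (Fin 2) (Fin 2) ℂ).trace = (t : ℂ) ∧
        ((R g : GL (Fin 2) ℂ) : Matrix (Fin 2) (Fin 2) ℂ).det = (d : ℂ) ∧
        ((r g : GL (Fin 2) k) : Matrix (Fin 2) (Fin 2) k).trace = φ t ∧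
        ((r g : GL (Fin 2) k) : Matrix (Fin 2) (Fin 2) k).det = φ d := by
  classical
  obtain ⟨P, r0, hP⟩ := hBD
  set i : ZMod ℓ →+* k := ZMod.castHom (dvd_refl ℓ) k with hi
  have hi_inj : Function.Injective i := i.injective
  set m := Nat.card G with hm
  have hmpos : 0 < m := Nat.card_pos
  have : NeZero m := ⟨hmpos.ne'⟩
  have hℓ2 : 2 ≤ ℓ := hℓ.out.two_le
  have hmle : m ≤ ℓ - 1 := Nat.le_of_dvd (by omega) hdvd
  have hℓm : ¬ ℓ ∣ m := fun h => by
    have := Nat.le_of_dvd hmpos h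
    omega
  have hmk : (m : k) ≠ 0 := by
    rw [Ne, CharP.cast_eq_zero_iff k ℓ]
    exact hℓm
  have hGm : ∀ g : G, g ^ m = 1 := fun g => pow_card_eq_one'
  -- roots of unity
  obtain ⟨z1, hz1⟩ := Hensel.exists_primitiveRoot_zmod ℓ m hdvd
  set ζℂ : ℂ := Complex.exp (2 * Real.pi * Complex.I / m) with hζℂdef
  have hζℂ : IsPrimitiveRoot ζℂ m := Complex.isPrimitiveRoot_exp m hmpos.ne'
  have hζint : IsIntegral ℤ ζℂ := hζℂ.isIntegral hmpos
  let ζbar : ℤbar := ⟨ζℂ, hζint⟩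
  have hζbar : IsPrimitiveRoot ζbar m :=
    IsPrimitiveRoot.of_map_of_injective (f := (integralClosure ℤ ℂ).val) hζℂ
      Subtype.coe_injective
  have hzk : IsPrimitiveRoot (φ ζbar) m := isPrimitiveRoot_map φ m hmk ζbar hζbar
  have hiz1 : IsPrimitiveRoot (i z1) m := hz1.map_of_injective hi_inj
  obtain ⟨c, -, hc⟩ := hiz1.eq_pow_of_pow_eq_one hzk.pow_eq_one
  set z0 : ZMod ℓ := z1 ^ c with hz0
  have hiz0 : i z0 = φ ζbar := by rw [hz0, map_pow, hc]
  have hz0prim : IsPrimitiveRoot z0 m :=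
    IsPrimitiveRoot.of_map_of_injective (f := i) (by rw [hiz0]; exact hzk) hi_inj
  clear_value z0
  obtain ⟨ζt, hζtm, hζtz⟩ := Hensel.exists_root_of_unity_lift ℓ m hℓm z0 hz0prim.pow_eq_one
  have hζtprim : IsPrimitiveRoot ζt m :=
    Hensel.isPrimitiveRoot_of_toZMod ℓ m ζt hζtm (by rw [hζtz]; exact hz0prim)
  have hζEprim : IsPrimitiveRoot ((PadicInt.Coe.ringHom : ℤ_[ℓ] →+* ℚ_[ℓ]) ζt) m :=
    hζtprim.map_of_injective Subtype.coe_injective
  set ζE : ℚ_[ℓ] := (PadicInt.Coe.ringHom : ℤ_[ℓ] →+* ℚ_[ℓ]) ζt with hζE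
  -- L1: lift to `ℤ_ℓ`
  have hcardrange : ¬ ℓ ∣ Nat.card r0.range := fun h =>
    hℓm (dvd_trans h (Subgroup.card_range_dvd r0))
  obtain ⟨R0, hR0, hR0fac, -⟩ := Padic.exists_lift_padicInt_of_range ℓ r0 hcardrange
  let ρE : G →* GL (Fin 2) ℚ_[ℓ] :=
    (Matrix.GeneralLinearGroup.map (PadicInt.Coe.ringHom : ℤ_[ℓ] →+* ℚ_[ℓ])).comp R0
  have hρEfin : Finite ρE.range := by
    have : Finite (Set.range ρE) := Set.finite_range ρE |>.to_subtype
    exact this
  -- L2: transfer to `ℂ` over the cyclotomic field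
  let : Field (Hensel.CycField m) := Hensel.cycFieldField m
  let jK : Hensel.CycField m →+* ℚ_[ℓ] := Hensel.cycHom m ζE hζEprim
  let ιK : Hensel.CycField m →+* ℂ := Hensel.cycHom m ζℂ hζℂ
  let : Algebra (Hensel.CycField m) ℚ_[ℓ] := jK.toAlgebra
  obtain ⟨R, hRchar, hRfac⟩ :=
    Complex.exists_rep_of_isAlgClosed (K := Hensel.CycField m) ιK ρE hρEfin
  have hjroot : jK (AdjoinRoot.root (cyclotomic m ℚ)) = ζE := Hensel.cycHom_root m ζE hζEprim
  have hιroot : ιK (AdjoinRoot.root (cyclotomic m ℚ)) = ζℂ := Hensel.cycHom_root m ζℂ hζℂ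
  -- analysis of each element
  have key : ∀ g : G, ∃ a b : ℕ,
      ((R g : GL (Fin 2) ℂ) : Matrix (Fin 2) (Fin 2) ℂ).charpoly =
        (X - C (ζℂ ^ a)) * (X - C (ζℂ ^ b)) ∧
      ((R0 g : GL (Fin 2) ℤ_[ℓ]) : Matrix (Fin 2) (Fin 2) ℤ_[ℓ]).trace = ζt ^ a + ζt ^ b ∧
      ((R0 g : GL (Fin 2) ℤ_[ℓ]) : Matrix (Fin 2) (Fin 2) ℤ_[ℓ]).det = ζt ^ a * ζt ^ b := by
    intro g
    have hpow : ((ρE g : GL (Fin 2) ℚ_[ℓ]) : Matrix (Fin 2) (Fin 2) ℚ_[ℓ]) ^ m = 1 := by
      have h1 : (ρE g) ^ m = 1 := by rw [← map_pow, hGm, map_one]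
      have := congrArg (fun u : GL (Fin 2) ℚ_[ℓ] => (u : Matrix (Fin 2) (Fin 2) ℚ_[ℓ])) h1
      simpa using this
    obtain ⟨a, b, hab⟩ := Mat2.charpoly_eq_of_pow_eq_one _ m ζE hζEprim hpow
    refine ⟨a, b, ?_, ?_, ?_⟩
    · have := hRchar g ((X - C ((AdjoinRoot.root (cyclotomic m ℚ)) ^ a)) *
        (X - C ((AdjoinRoot.root (cyclotomic m ℚ)) ^ b))) (by
          rw [hab, RingHom.algebraMap_toAlgebra, map_quad, hjroot])
      rw [this, map_quad, hιroot]
    · obtain ⟨htr, -⟩ := trace_det_of_charpoly _ _ _ hab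
      have h2 : ((ρE g : GL (Fin 2) ℚ_[ℓ]) : Matrix (Fin 2) (Fin 2) ℚ_[ℓ]).trace =
          (PadicInt.Coe.ringHom : ℤ_[ℓ] →+* ℚ_[ℓ])
            ((R0 g : GL (Fin 2) ℤ_[ℓ]) : Matrix (Fin 2) (Fin 2) ℤ_[ℓ]).trace := by
        change ((Matrix.GeneralLinearGroup.map (PadicInt.Coe.ringHom : ℤ_[ℓ] →+* ℚ_[ℓ]) (R0 g) :
          GL (Fin 2) ℚ_[ℓ]) : Matrix (Fin 2) (Fin 2) ℚ_[ℓ]).trace = _
        rw [coe_map_eq, trace_map_eq]
      rw [h2, hζE, ← map_pow, ← map_pow, ← map_add] at htr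
      exact Subtype.coe_injective htr
    · obtain ⟨-, hdet⟩ := trace_det_of_charpoly _ _ _ hab
      have h2 : ((ρE g : GL (Fin 2) ℚ_[ℓ]) : Matrix (Fin 2) (Fin 2) ℚ_[ℓ]).det =
          (PadicInt.Coe.ringHom : ℤ_[ℓ] →+* ℚ_[ℓ])
            ((R0 g : GL (Fin 2) ℤ_[ℓ]) : Matrix (Fin 2) (Fin 2) ℤ_[ℓ]).det := by
        change ((Matrix.GeneralLinearGroup.map (PadicInt.Coe.ringHom : ℤ_[ℓ] →+* ℚ_[ℓ]) (R0 g) :
          GL (Fin 2) ℚ_[ℓ]) : Matrix (Fin 2) (Fin 2) ℚ_[ℓ]).det = _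
        rw [coe_map_eq, det_map_eq]
      rw [h2, hζE, ← map_pow, ← map_pow, ← map_mul] at hdet
      exact Subtype.coe_injective hdet
  -- the main compatibility statement
  have hmain : ∀ g, ∃ t d : ℤbar,
      ((R g : GL (Fin 2) ℂ) : Matrix (Fin 2) (Fin 2) ℂ).trace = (t : ℂ) ∧
      ((R g : GL (Fin 2) ℂ) : Matrix (Fin 2) (Fin 2) ℂ).det = (d : ℂ) ∧
      ((r g : GL (Fin 2) k) : Matrix (Fin 2) (Fin 2) k).trace = φ t ∧
      ((r g : GL (Fin 2) k) : Matrix (Fin 2) (Fin 2) k).det = φ d := by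
    intro g
    obtain ⟨a, b, hchar, htr, hdet⟩ := key g
    obtain ⟨htrR, hdetR⟩ := trace_det_of_charpoly _ _ _ hchar
    -- the reduction `r0 g`
    have hr0tr : ((r0 g : GL (Fin 2) (ZMod ℓ)) : Matrix (Fin 2) (Fin 2) (ZMod ℓ)).trace =
        z0 ^ a + z0 ^ b := by
      rw [← hR0 g, trace_map_eq, htr, map_add, map_pow, map_pow, hζtz]
    have hr0det : ((r0 g : GL (Fin 2) (ZMod ℓ)) : Matrix (Fin 2) (Fin 2) (ZMod ℓ)).det =
        z0 ^ a * z0 ^ b := by
      rw [← hR0 g, det_map_eq, hdet, map_mul, map_pow, map_pow, hζtz]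
    -- conjugation invariance
    have hconj : ((P * r g * P⁻¹ : GL (Fin 2) k) : Matrix (Fin 2) (Fin 2) k) =
        ((r0 g : GL (Fin 2) (ZMod ℓ)) : Matrix (Fin 2) (Fin 2) (ZMod ℓ)).map i := by
      rw [hP g, coe_map_eq]
    have hconj' : ((P * r g * P⁻¹ : GL (Fin 2) k) : Matrix (Fin 2) (Fin 2) k) =
        (P : Matrix (Fin 2) (Fin 2) k) * ((r g : GL (Fin 2) k) : Matrix (Fin 2) (Fin 2) k) *
          ((P⁻¹ : GL (Fin 2) k) : Matrix (Fin 2) (Fin 2) k) := rfl
    have hrtr : ((r g : GL (Fin 2) k) : Matrix (Fin 2) (Fin 2) k).trace =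
        (i z0) ^ a + (i z0) ^ b := by
      rw [← Matrix.trace_units_conj P, ← hconj', hconj, trace_map_eq, hr0tr, map_add, map_pow,
        map_pow]
    have hrdet : ((r g : GL (Fin 2) k) : Matrix (Fin 2) (Fin 2) k).det =
        (i z0) ^ a * (i z0) ^ b := by
      rw [← Matrix.det_units_conj P, ← hconj', hconj, det_map_eq, hr0det, map_mul, map_pow,
        map_pow]
    refine ⟨ζbar ^ a + ζbar ^ b, ζbar ^ a * ζbar ^ b, ?_, ?_, ?_, ?_⟩
    · rw [htrR]
      push_cast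
      rfl
    · rw [hdetR]
      push_cast
      rfl
    · rw [hrtr, hiz0, map_add, map_pow, map_pow]
    · rw [hrdet, hiz0, map_mul, map_pow, map_pow]
  refine ⟨R, fun g => ⟨fun hRg => ?_, fun hrg => ?_⟩, hmain⟩
  · -- `R g = 1 → r g = 1`
    obtain ⟨t, d, htR, hdR, htr, hdr⟩ := hmain g
    rw [hRg] at htR hdR
    have ht2 : t = 2 := by
      apply Subtype.ext
      rw [← htR]
      have h2 : ((2 : ℤbar) : ℂ) = 2 := map_ofNat (integralClosure ℤ ℂ).val 2
      rw [h2]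
      simp
    have hd1 : d = 1 := by
      apply Subtype.ext
      rw [← hdR]
      simp
    rw [ht2, map_ofNat] at htr
    rw [hd1, map_one] at hdr
    apply Units.ext
    refine Kernel.eq_one_of_charpoly_eq_one _ m hmk ?_ ?_
    · have h1 : (r g) ^ m = 1 := by rw [← map_pow, hGm, map_one]
      have := congrArg (fun u : GL (Fin 2) k => (u : Matrix (Fin 2) (Fin 2) k)) h1
      simpa using this
    · rw [Matrix.charpoly_fin_two, Matrix.charpoly_fin_two, htr, hdr]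
      simp
  · -- `r g = 1 → R g = 1`
    have h1 : Matrix.GeneralLinearGroup.map i (r0 g) = 1 := by
      rw [← hP g, hrg]
      simp
    have h2 : r0 g = 1 := by
      apply Units.ext
      ext a b
      apply hi_inj
      have := congrArg (fun u : GL (Fin 2) k => (u : Matrix (Fin 2) (Fin 2) k) a b) h1
      simp only [coe_map_eq, Matrix.map_apply, Units.val_one] at this
      rw [this, Units.val_one]
      by_cases hab : a = b
      · subst hab
        simp
      · simp [Matrix.one_apply_ne hab]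
    have h3 : R0 g = R0 1 := hR0fac g 1 (by rw [h2, map_one])
    have h4 : ρE g = ρE 1 := by
      simp only [ρE, MonoidHom.comp_apply, h3]
    rw [hRfac g 1 h4, map_one]

end Fermat.Agent.DS.Lift.Main
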