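/-
Programme DS (S48), brick B5 (DS-LIFT), part 7 (L3).

Characteristic polynomials determine kernels of finite-image `2`-dimensional representations in
characteristic zero, and the "power trick": equality of characteristic polynomials at a power
prime to the order implies equality of characteristic polynomials.
-/
import Mathlib
import Fermat.Agent.DS.Lift.Mat2

set_option autoImplicit false

namespace Fermat.Agent.DS.Lift.Kernel

open Polynomial Matrix Fermat.Agent.DS.Lift.Mat2

variable {k : Type*} [Field k]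

/-- A `2 × 2` matrix of finite order `m` (invertible in the field) with the characteristic
polynomial of the identity is the identity. -/
theorem eq_one_of_charpoly_eq_one (M : Matrix (Fin 2) (Fin 2) k) (m : ℕ) (hm : (m : k) ≠ 0)
    (hpow : M ^ m = 1) (hchar : M.charpoly = (1 : Matrix (Fin 2) (Fin 2) k).charpoly) :
    M = 1 := by
  have hCH : Polynomial.aeval M M.charpoly = 0 := Matrix.aeval_self_charpoly M
  have h1 : (1 : Matrix (Fin 2) (Fin 2) k).charpoly = (X - C 1) * (X - C 1) := by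
    rw [Matrix.charpoly_one]
    simp [pow_two]
  rw [hchar, h1, map_mul] at hCH
  have haev : Polynomial.aeval M (X - C (1 : k)) = M - 1 := by simp
  rw [haev] at hCH
  exact eq_one_of_sq_zero_of_pow M m hm hCH hpow

/-- **Kernels from characteristic polynomials.** -/
theorem eq_one_of_charpoly_eq {Γ : Type*} [Group Γ] (ρ ρ' : Γ →* GL (Fin 2) k) (m : ℕ)
    (hm : (m : k) ≠ 0) (hfin : ∀ γ, (ρ' γ) ^ m = 1)
    (h : ∀ γ, ((ρ γ : GL (Fin 2) k) : Matrix (Fin 2) (Fin 2) k).charpoly =
      ((ρ' γ : GL (Fin 2) k) : Matrix (Fin 2) (Fin 2) k).charpoly)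
    (γ : Γ) (hγ : ρ γ = 1) : ρ' γ = 1 := by
  apply Units.ext
  refine eq_one_of_charpoly_eq_one _ m hm ?_ ?_
  · have := congrArg (fun u : GL (Fin 2) k => (u : Matrix (Fin 2) (Fin 2) k)) (hfin γ)
    simpa using this
  · rw [← h γ, hγ]
    rfl

/-- Two monic quadratics with the same roots (unordered pairs). -/
theorem pair_eq_of_mul_eq {u v u' v' : k}
    (h : (X - C u) * (X - C v) = (X - C u') * (X - C v')) :
    (u = u' ∧ v = v') ∨ (u = v' ∧ v = u') := by
  have hu := congrArg (Polynomial.eval u) h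
  simp only [eval_mul, eval_sub, eval_X, eval_C, sub_self, zero_mul] at hu
  have hsum : u + v = u' + v' := by
    have h0 := congrArg (Polynomial.eval 0) h
    have h1 := congrArg (Polynomial.eval 1) h
    simp only [eval_mul, eval_sub, eval_X, eval_C] at h0 h1
    linear_combination h0 - h1
  rcases mul_eq_zero.mp hu.symm with h1 | h1
  · left
    have e : u = u' := sub_eq_zero.mp h1
    refine ⟨e, ?_⟩
    rw [e] at hsum
    exact add_left_cancel hsum
  · right
    have e : u = v' := sub_eq_zero.mp h1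
    refine ⟨e, ?_⟩
    rw [e] at hsum
    linear_combination hsum

/-- `x ↦ x^j` is injective on `m`-th roots of unity when `j` is prime to `m`. -/
theorem eq_of_pow_eq_of_coprime {x y : k} (m j : ℕ) (hcop : Nat.Coprime j m)
    (hx : x ^ m = 1) (hy : y ^ m = 1) (hm : m ≠ 0) (h : x ^ j = y ^ j) : x = y := by
  have hy0 : y ≠ 0 := by
    rintro rfl
    rw [zero_pow hm] at hy
    exact zero_ne_one hy
  have h1 : (x / y) ^ m = 1 := by rw [div_pow, hx, hy, div_one]
  have h2 : (x / y) ^ j = 1 := by rw [div_pow, h, div_self (pow_ne_zero _ hy0)]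
  have h3 : (x / y) ^ Nat.gcd j m = 1 := pow_gcd_eq_one.mpr ⟨h2, h1⟩
  rw [Nat.Coprime.gcd_eq_one hcop, pow_one] at h3
  exact (div_eq_one_iff_eq hy0).mp h3

/-- The characteristic polynomial of a power of a `2 × 2` matrix of finite order. -/
theorem exists_charpoly_pow (M : Matrix (Fin 2) (Fin 2) k) (m : ℕ) [NeZero m]
    (ζ : k) (hζ : IsPrimitiveRoot ζ m) (hpow : M ^ m = 1) :
    ∃ a b : ℕ, ∀ j : ℕ, (M ^ j).charpoly = (X - C ((ζ ^ a) ^ j)) * (X - C ((ζ ^ b) ^ j)) := by
  obtain ⟨P, a, b, hP⟩ := exists_conj_diagonal_of_pow_eq_one M m ζ hζ hpow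
  refine ⟨a, b, fun j => ?_⟩
  have hconj : ∀ j : ℕ, (P : Matrix (Fin 2) (Fin 2) k) * M ^ j *
      ((P⁻¹ : GL (Fin 2) k) : Matrix (Fin 2) (Fin 2) k) =
      (Matrix.diagonal ![ζ ^ a, ζ ^ b]) ^ j := by
    intro j
    induction j with
    | zero => simp
    | succ j ih =>
      rw [pow_succ, pow_succ, ← ih, ← hP]
      have hinv : ((P⁻¹ : GL (Fin 2) k) : Matrix (Fin 2) (Fin 2) k) * (P : Matrix (Fin 2) (Fin 2) k)
          = 1 := Units.inv_mul P
      calc (P : Matrix (Fin 2) (Fin 2) k) * (M ^ j * M) *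
            ((P⁻¹ : GL (Fin 2) k) : Matrix (Fin 2) (Fin 2) k)
          = (P : Matrix (Fin 2) (Fin 2) k) * M ^ j *
              (((P⁻¹ : GL (Fin 2) k) : Matrix (Fin 2) (Fin 2) k) * (P : Matrix (Fin 2) (Fin 2) k)) *
              M * ((P⁻¹ : GL (Fin 2) k) : Matrix (Fin 2) (Fin 2) k) := by
            rw [hinv]; noncomm_ring
        _ = _ := by noncomm_ring
  have h1 := Matrix.charpoly_units_conj P (M ^ j)
  rw [← Matrix.coe_units_inv, hconj j] at h1
  rw [← h1, Matrix.diagonal_pow, Matrix.charpoly_fin_two]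
  simp only [Matrix.trace_fin_two, Matrix.det_fin_two, Matrix.diagonal_apply_eq,
    Matrix.diagonal_apply_ne, ne_eq, Fin.isValue, zero_ne_one, one_ne_zero, not_false_eq_true,
    Pi.pow_apply, Matrix.cons_val_zero, Matrix.cons_val_one, mul_zero, sub_zero, C_add, C_mul]
  ring

/-- **Power trick.**  If `M`, `M'` have order dividing `m`, `j` is prime to `m` and `M^j`, `M'^j`
have the same characteristic polynomial, then so do `M` and `M'`. -/
theorem charpoly_eq_of_charpoly_pow_eq (M M' : Matrix (Fin 2) (Fin 2) k) (m : ℕ) [NeZero m]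
    (ζ : k) (hζ : IsPrimitiveRoot ζ m) (hpow : M ^ m = 1) (hpow' : M' ^ m = 1)
    (j : ℕ) (hcop : Nat.Coprime j m) (h : (M ^ j).charpoly = (M' ^ j).charpoly) :
    M.charpoly = M'.charpoly := by
  obtain ⟨a, b, hab⟩ := exists_charpoly_pow M m ζ hζ hpow
  obtain ⟨a', b', hab'⟩ := exists_charpoly_pow M' m ζ hζ hpow'
  have hm : m ≠ 0 := NeZero.ne m
  have hroot : ∀ c : ℕ, (ζ ^ c) ^ m = 1 := fun c => by
    rw [← pow_mul, mul_comm, pow_mul, hζ.pow_eq_one, one_pow]
  have h1 := hab 1
  have h1' := hab' 1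
  simp only [pow_one] at h1 h1'
  rw [h1, h1']
  have hj := h
  rw [hab j, hab' j] at hj
  rcases pair_eq_of_mul_eq hj with ⟨e1, e2⟩ | ⟨e1, e2⟩
  · rw [eq_of_pow_eq_of_coprime m j hcop (hroot a) (hroot a') hm e1,
      eq_of_pow_eq_of_coprime m j hcop (hroot b) (hroot b') hm e2]
  · rw [eq_of_pow_eq_of_coprime m j hcop (hroot a) (hroot b') hm e1,
      eq_of_pow_eq_of_coprime m j hcop (hroot b) (hroot a') hm e2, mul_comm]

end Fermat.Agent.DS.Lift.Kernel
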