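/-
Programme DS (S48), brick B5' (DS-LIFT), piece BD-lite (helper55).

A group of exponent `m` inside `GL₂(k)` is conjugate into `GL₂(F)` as soon as the subfield `F` of `k`
contains a primitive `m`-th root of unity (`exists_conj_map`).

Proof.  Let `E = i(F)`.  All traces and determinants lie in `E` (eigenvalues are `m`-th roots of
unity).  If all elements are scalar we are done.  Otherwise diagonalise a non-scalar element
`g₀ = diag(α, β)`, `α ≠ β ∈ E`; then `tr h`, `tr (g₀ h) ∈ E` put the diagonal entries of every `h` in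
`E`, and `h₀₁ h₁₀ ∈ E`.  If the group is triangular it is diagonal (commutators with `g₀` are unipotent
of finite order prime to the characteristic); otherwise some `h₀` has both off-diagonal entries
non-zero, rescale the basis so that `(h₀)₀₁ = 1`; then `(h h₀)₀₀` and `(h₀ h)₀₀` give the off-diagonal
entries of `h`.
-/
import Mathlib
import Fermat.Agent.DS.Lift.Mat2

set_option autoImplicit false

namespace Fermat.Agent.DS.Lift.BDLite

open Matrix Polynomial

variable {k : Type*} [Field k]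

/-! ### Sums over `Fin 2` with generic indices -/

theorem sum_fin_two {a b : Fin 2} (hab : a ≠ b) (f : Fin 2 → k) : ∑ p, f p = f a + f b := by
  fin_cases a <;> fin_cases b <;> simp_all [Fin.sum_univ_two, add_comm]

theorem eq_or_eq_of_ne {a b : Fin 2} (hab : a ≠ b) (i : Fin 2) : i = a ∨ i = b := by
  fin_cases a <;> fin_cases b <;> fin_cases i <;> simp_all

/-! ### Trace and determinant of matrices of finite order -/

theorem trace_det_of_pow_eq_one (M : Matrix (Fin 2) (Fin 2) k) (m : ℕ) [NeZero m] (ζ : k)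
    (hζ : IsPrimitiveRoot ζ m) (hpow : M ^ m = 1) :
    ∃ a b : ℕ, M.trace = ζ ^ a + ζ ^ b ∧ M.det = ζ ^ a * ζ ^ b := by
  obtain ⟨a, b, h⟩ := Mat2.charpoly_eq_of_pow_eq_one M m ζ hζ hpow
  have hdet : M.det = ζ ^ a * ζ ^ b := by
    have := congrArg (Polynomial.eval 0) h
    rw [Matrix.charpoly_fin_two] at this
    simpa using this
  have htr : M.trace = ζ ^ a + ζ ^ b := by
    have := congrArg (Polynomial.eval 1) h
    rw [Matrix.charpoly_fin_two, hdet] at this
    simp only [eval_add, eval_sub, eval_pow, eval_X, eval_mul, eval_C, one_pow, mul_one] at this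
    linear_combination -this
  exact ⟨a, b, htr, hdet⟩

variable {G : Type*} [Group G]

/-- The hypotheses shared by all steps: a subfield `E` containing all traces and determinants. -/
structure TraceDetIn (E : Subfield k) (r : G →* GL (Fin 2) k) : Prop where
  trace_mem : ∀ g, ((r g : GL (Fin 2) k) : Matrix (Fin 2) (Fin 2) k).trace ∈ E
  det_mem : ∀ g, ((r g : GL (Fin 2) k) : Matrix (Fin 2) (Fin 2) k).det ∈ E

theorem traceDetIn_of_exponent (E : Subfield k) (r : G →* GL (Fin 2) k) (m : ℕ) [NeZero m]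
    (hm : ∀ g : G, g ^ m = 1) (ζ : k) (hζ : IsPrimitiveRoot ζ m) (hζE : ζ ∈ E) :
    TraceDetIn E r := by
  have key : ∀ g, ∃ a b : ℕ,
      ((r g : GL (Fin 2) k) : Matrix (Fin 2) (Fin 2) k).trace = ζ ^ a + ζ ^ b ∧
      ((r g : GL (Fin 2) k) : Matrix (Fin 2) (Fin 2) k).det = ζ ^ a * ζ ^ b := by
    intro g
    apply trace_det_of_pow_eq_one _ m ζ hζ
    rw [← Units.val_pow_eq_pow_val, ← map_pow, hm, map_one, Units.val_one]
  constructor
  · intro g
    obtain ⟨a, b, h1, -⟩ := key g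
    rw [h1]
    exact E.add_mem (E.pow_mem hζE a) (E.pow_mem hζE b)
  · intro g
    obtain ⟨a, b, -, h2⟩ := key g
    rw [h2]
    exact E.mul_mem (E.pow_mem hζE a) (E.pow_mem hζE b)

section diag

variable {E : Subfield k} {r : G →* GL (Fin 2) k} {g₀ : G} {d : Fin 2 → k}

/-- Step 1: the diagonal entries lie in `E`. -/
theorem diag_mem (h : TraceDetIn E r)
    (hg₀ : ((r g₀ : GL (Fin 2) k) : Matrix (Fin 2) (Fin 2) k) = Matrix.diagonal d)
    (hd0 : d 0 ∈ E) (hd1 : d 1 ∈ E) (hne : d 0 ≠ d 1) (g : G) :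
    ((r g : GL (Fin 2) k) : Matrix (Fin 2) (Fin 2) k) 0 0 ∈ E ∧
      ((r g : GL (Fin 2) k) : Matrix (Fin 2) (Fin 2) k) 1 1 ∈ E := by
  set X : Matrix (Fin 2) (Fin 2) k := ((r g : GL (Fin 2) k) : Matrix (Fin 2) (Fin 2) k) with hX
  have h1 : X 0 0 + X 1 1 ∈ E := by
    have := h.trace_mem g
    rwa [Matrix.trace_fin_two] at this
  have h2 : d 0 * X 0 0 + d 1 * X 1 1 ∈ E := by
    have := h.trace_mem (g₀ * g)
    rw [map_mul, Units.val_mul, hg₀, Matrix.trace_fin_two, Matrix.diagonal_mul,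
      Matrix.diagonal_mul] at this
    exact this
  have hne' : d 0 - d 1 ≠ 0 := sub_ne_zero.mpr hne
  have h3 : X 0 0 = ((d 0 * X 0 0 + d 1 * X 1 1) - d 1 * (X 0 0 + X 1 1)) / (d 0 - d 1) := by
    field_simp
    ring
  have h4 : X 0 0 ∈ E := by
    rw [h3]
    exact E.div_mem (E.sub_mem h2 (E.mul_mem hd1 h1)) (E.sub_mem hd0 hd1)
  refine ⟨h4, ?_⟩
  have : X 1 1 = (X 0 0 + X 1 1) - X 0 0 := by ring
  rw [this]
  exact E.sub_mem h1 h4

/-- Step 1': the product of the off-diagonal entries lies in `E`. -/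
theorem offdiag_mul_mem (h : TraceDetIn E r)
    (hg₀ : ((r g₀ : GL (Fin 2) k) : Matrix (Fin 2) (Fin 2) k) = Matrix.diagonal d)
    (hd0 : d 0 ∈ E) (hd1 : d 1 ∈ E) (hne : d 0 ≠ d 1) (g : G) :
    ((r g : GL (Fin 2) k) : Matrix (Fin 2) (Fin 2) k) 0 1 *
      ((r g : GL (Fin 2) k) : Matrix (Fin 2) (Fin 2) k) 1 0 ∈ E := by
  obtain ⟨h0, h1⟩ := diag_mem h hg₀ hd0 hd1 hne g
  set X : Matrix (Fin 2) (Fin 2) k := ((r g : GL (Fin 2) k) : Matrix (Fin 2) (Fin 2) k) with hX
  have h2 : X 0 0 * X 1 1 - X 0 1 * X 1 0 ∈ E := by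
    have := h.det_mem g
    rwa [Matrix.det_fin_two] at this
  have : X 0 1 * X 1 0 = X 0 0 * X 1 1 - (X 0 0 * X 1 1 - X 0 1 * X 1 0) := by ring
  rw [this]
  exact E.sub_mem (E.mul_mem h0 h1) h2

end diag

/-! ### Triangular groups of exponent prime to the characteristic are diagonal -/

section triangular

variable {r : G →* GL (Fin 2) k} {g₀ : G} {d : Fin 2 → k}

theorem mul_apply_diag_left {a b : Fin 2} (hab : a ≠ b) (A B : Matrix (Fin 2) (Fin 2) k)
    (hA : A a b = 0) : (A * B) a a = A a a * B a a := by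
  rw [Matrix.mul_apply, sum_fin_two hab, hA, zero_mul, add_zero]

theorem mul_apply_diag_right {a b : Fin 2} (hab : a ≠ b) (A B : Matrix (Fin 2) (Fin 2) k)
    (hB : B a b = 0) : (A * B) b b = A b b * B b b := by
  rw [Matrix.mul_apply, sum_fin_two hab, hB, mul_zero, zero_add]

theorem sub_one_sq_eq_zero {a b : Fin 2} (hab : a ≠ b) (c : Matrix (Fin 2) (Fin 2) k)
    (h1 : c a b = 0) (h2 : c a a = 1) (h3 : c b b = 1) : (c - 1) * (c - 1) = 0 := by
  have ha : ∀ j, (c - 1) a j = 0 := by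
    intro j
    rcases eq_or_eq_of_ne hab j with rfl | rfl
    · rw [Matrix.sub_apply, h2, Matrix.one_apply_eq, sub_self]
    · rw [Matrix.sub_apply, h1, Matrix.one_apply_ne hab, sub_self]
  have hb : ∀ i, (c - 1) i b = 0 := by
    intro i
    rcases eq_or_eq_of_ne hab i with rfl | rfl
    · rw [Matrix.sub_apply, h1, Matrix.one_apply_ne hab, sub_self]
    · rw [Matrix.sub_apply, h3, Matrix.one_apply_eq, sub_self]
  ext i j
  rw [Matrix.mul_apply, sum_fin_two hab, ha j, hb i, mul_zero, zero_mul, add_zero,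
    Matrix.zero_apply]

/-- Step 2: if all `r g` have vanishing `(a, b)` entry, they also have vanishing `(b, a)` entry. -/
theorem offdiag_eq_zero (m : ℕ) (hmk : (m : k) ≠ 0) (hm : ∀ g : G, g ^ m = 1)
    (hg₀ : ((r g₀ : GL (Fin 2) k) : Matrix (Fin 2) (Fin 2) k) = Matrix.diagonal d)
    {a b : Fin 2} (hab : a ≠ b) (hne : d a ≠ d b)
    (htri : ∀ g, ((r g : GL (Fin 2) k) : Matrix (Fin 2) (Fin 2) k) a b = 0) (g : G) :
    ((r g : GL (Fin 2) k) : Matrix (Fin 2) (Fin 2) k) b a = 0 := by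
  -- the two diagonal entries are multiplicative
  have hmula : ∀ x y : G, ((r (x * y) : GL (Fin 2) k) : Matrix (Fin 2) (Fin 2) k) a a =
      ((r x : GL (Fin 2) k) : Matrix (Fin 2) (Fin 2) k) a a *
        ((r y : GL (Fin 2) k) : Matrix (Fin 2) (Fin 2) k) a a := by
    intro x y
    rw [map_mul, Units.val_mul, mul_apply_diag_left hab _ _ (htri x)]
  have hmulb : ∀ x y : G, ((r (x * y) : GL (Fin 2) k) : Matrix (Fin 2) (Fin 2) k) b b =
      ((r x : GL (Fin 2) k) : Matrix (Fin 2) (Fin 2) k) b b *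
        ((r y : GL (Fin 2) k) : Matrix (Fin 2) (Fin 2) k) b b := by
    intro x y
    rw [map_mul, Units.val_mul, mul_apply_diag_right hab _ _ (htri y)]
  have hone : ((r 1 : GL (Fin 2) k) : Matrix (Fin 2) (Fin 2) k) = 1 := by
    rw [map_one, Units.val_one]
  -- the commutator
  set c : G := g * g₀ * g⁻¹ * g₀⁻¹ with hc
  have hcomm : ∀ f : G → k, (∀ x y, f (x * y) = f x * f y) → f 1 = 1 → f c = 1 := by
    intro f hf h1
    have e1 : f g * f g⁻¹ = 1 := by rw [← hf, mul_inv_cancel, h1]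
    have e2 : f g₀ * f g₀⁻¹ = 1 := by rw [← hf, mul_inv_cancel, h1]
    rw [hc, hf, hf, hf]
    calc f g * f g₀ * f g⁻¹ * f g₀⁻¹ = (f g * f g⁻¹) * (f g₀ * f g₀⁻¹) := by ring
      _ = 1 := by rw [e1, e2, mul_one]
  have hcaa : ((r c : GL (Fin 2) k) : Matrix (Fin 2) (Fin 2) k) a a = 1 :=
    hcomm (fun x => ((r x : GL (Fin 2) k) : Matrix (Fin 2) (Fin 2) k) a a) hmula
      (by rw [hone, Matrix.one_apply_eq])
  have hcbb : ((r c : GL (Fin 2) k) : Matrix (Fin 2) (Fin 2) k) b b = 1 :=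
    hcomm (fun x => ((r x : GL (Fin 2) k) : Matrix (Fin 2) (Fin 2) k) b b) hmulb
      (by rw [hone, Matrix.one_apply_eq])
  have hsq := sub_one_sq_eq_zero hab _ (htri c) hcaa hcbb
  have hpow : ((r c : GL (Fin 2) k) : Matrix (Fin 2) (Fin 2) k) ^ m = 1 := by
    rw [← Units.val_pow_eq_pow_val, ← map_pow, hm, map_one, Units.val_one]
  have hc1 : ((r c : GL (Fin 2) k) : Matrix (Fin 2) (Fin 2) k) = 1 :=
    Mat2.eq_one_of_sq_zero_of_pow _ m hmk hsq hpow
  have hrc : r c = 1 := Units.ext (by rw [hc1, Units.val_one])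
  -- hence `r g` commutes with the diagonal matrix `r g₀`
  have hcommute : r g * r g₀ = r g₀ * r g := by
    have h1 : r c = r g * r g₀ * (r g)⁻¹ * (r g₀)⁻¹ := by
      rw [hc, map_mul, map_mul, map_mul, map_inv, map_inv]
    rw [h1] at hrc
    have h2 : r g * r g₀ * (r g)⁻¹ = r g₀ := by
      have := mul_inv_eq_one.mp hrc
      exact this
    exact mul_inv_eq_iff_eq_mul.mp h2
  have hval := congrArg (fun x : GL (Fin 2) k => (x : Matrix (Fin 2) (Fin 2) k) b a) hcommute
  simp only [Units.val_mul, hg₀, Matrix.mul_diagonal, Matrix.diagonal_mul] at hval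
  have h0 : ((r g : GL (Fin 2) k) : Matrix (Fin 2) (Fin 2) k) b a * (d a - d b) = 0 := by
    linear_combination hval
  rcases mul_eq_zero.mp h0 with h | h
  · exact h
  · exact absurd (sub_eq_zero.mp h) hne

end triangular

/-! ### The generic case -/

section generic

variable {E : Subfield k} {r : G →* GL (Fin 2) k} {g₀ : G} {d : Fin 2 → k}

/-- Step 3: if some `h₀` has `(r h₀)₀₁ = 1` and `(r h₀)₁₀ ≠ 0`, all entries lie in `E`. -/
theorem entries_mem_of_normalised (h : TraceDetIn E r)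
    (hg₀ : ((r g₀ : GL (Fin 2) k) : Matrix (Fin 2) (Fin 2) k) = Matrix.diagonal d)
    (hd0 : d 0 ∈ E) (hd1 : d 1 ∈ E) (hne : d 0 ≠ d 1) {h₀ : G}
    (h01 : ((r h₀ : GL (Fin 2) k) : Matrix (Fin 2) (Fin 2) k) 0 1 = 1)
    (h10 : ((r h₀ : GL (Fin 2) k) : Matrix (Fin 2) (Fin 2) k) 1 0 ≠ 0) (g : G) (a b : Fin 2) :
    ((r g : GL (Fin 2) k) : Matrix (Fin 2) (Fin 2) k) a b ∈ E := by
  set H : Matrix (Fin 2) (Fin 2) k := ((r h₀ : GL (Fin 2) k) : Matrix (Fin 2) (Fin 2) k) with hH
  set X : Matrix (Fin 2) (Fin 2) k := ((r g : GL (Fin 2) k) : Matrix (Fin 2) (Fin 2) k) with hX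
  have hH10 : H 1 0 ∈ E := by
    have := offdiag_mul_mem h hg₀ hd0 hd1 hne h₀
    rwa [← hH, h01, one_mul] at this
  obtain ⟨hH00, -⟩ := diag_mem h hg₀ hd0 hd1 hne h₀
  obtain ⟨hX00, hX11⟩ := diag_mem h hg₀ hd0 hd1 hne g
  have hXH : X 0 0 * H 0 0 + X 0 1 * H 1 0 ∈ E := by
    have := (diag_mem h hg₀ hd0 hd1 hne (g * h₀)).1
    rwa [map_mul, Units.val_mul, Matrix.mul_apply, Fin.sum_univ_two] at this
  have hHX : H 0 0 * X 0 0 + X 1 0 ∈ E := by
    have := (diag_mem h hg₀ hd0 hd1 hne (h₀ * g)).1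
    rwa [map_mul, Units.val_mul, Matrix.mul_apply, Fin.sum_univ_two, ← hH, h01, one_mul] at this
  have hX01 : X 0 1 ∈ E := by
    have e : X 0 1 = ((X 0 0 * H 0 0 + X 0 1 * H 1 0) - X 0 0 * H 0 0) / H 1 0 := by
      field_simp
      ring
    rw [e]
    exact E.div_mem (E.sub_mem hXH (E.mul_mem hX00 hH00)) hH10
  have hX10 : X 1 0 ∈ E := by
    have e : X 1 0 = (H 0 0 * X 0 0 + X 1 0) - H 0 0 * X 0 0 := by ring
    rw [e]
    exact E.sub_mem hHX (E.mul_mem hH00 hX00)
  fin_cases a <;> fin_cases b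
  · exact hX00
  · exact hX01
  · exact hX10
  · exact hX11

end generic

/-! ### Conjugation of homomorphisms -/

/-- `g ↦ P (r g) P⁻¹`. -/
def conjHom (P : GL (Fin 2) k) (r : G →* GL (Fin 2) k) : G →* GL (Fin 2) k :=
  (MulAut.conj P).toMonoidHom.comp r

theorem conjHom_apply (P : GL (Fin 2) k) (r : G →* GL (Fin 2) k) (g : G) :
    conjHom P r g = P * r g * P⁻¹ := rfl

/-- entries of a conjugate by a diagonal matrix -/
theorem conj_diagonal_apply (P : GL (Fin 2) k) {δ : Fin 2 → k}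
    (hP : (P : Matrix (Fin 2) (Fin 2) k) = Matrix.diagonal δ) (hδ : ∀ i, δ i ≠ 0)
    (M : GL (Fin 2) k) (a b : Fin 2) :
    ((P * M * P⁻¹ : GL (Fin 2) k) : Matrix (Fin 2) (Fin 2) k) a b =
      δ a * (M : Matrix (Fin 2) (Fin 2) k) a b / δ b := by
  have h1 : ((P * M * P⁻¹ : GL (Fin 2) k) : Matrix (Fin 2) (Fin 2) k) *
      (P : Matrix (Fin 2) (Fin 2) k) = (P : Matrix (Fin 2) (Fin 2) k) *
        (M : Matrix (Fin 2) (Fin 2) k) := by
    rw [← Units.val_mul, ← Units.val_mul, inv_mul_cancel_right]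
  have h2 := congrFun (congrFun h1 a) b
  rw [hP, Matrix.mul_diagonal, Matrix.diagonal_mul] at h2
  rw [eq_div_iff (hδ b), h2]

/-! ### Main theorem, in terms of entries -/

theorem exists_both_offdiag {r : G →* GL (Fin 2) k}
    (h1 : ∃ g, ((r g : GL (Fin 2) k) : Matrix (Fin 2) (Fin 2) k) 0 1 ≠ 0)
    (h2 : ∃ g, ((r g : GL (Fin 2) k) : Matrix (Fin 2) (Fin 2) k) 1 0 ≠ 0) :
    ∃ g, ((r g : GL (Fin 2) k) : Matrix (Fin 2) (Fin 2) k) 0 1 ≠ 0 ∧
      ((r g : GL (Fin 2) k) : Matrix (Fin 2) (Fin 2) k) 1 0 ≠ 0 := by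
  obtain ⟨x, hx⟩ := h1
  obtain ⟨y, hy⟩ := h2
  by_cases hx' : ((r x : GL (Fin 2) k) : Matrix (Fin 2) (Fin 2) k) 1 0 = 0
  · by_cases hy' : ((r y : GL (Fin 2) k) : Matrix (Fin 2) (Fin 2) k) 0 1 = 0
    · -- `x` upper triangular, `y` lower triangular: take `x * y`
      set A : Matrix (Fin 2) (Fin 2) k := ((r x : GL (Fin 2) k) : Matrix (Fin 2) (Fin 2) k) with hA
      set B : Matrix (Fin 2) (Fin 2) k := ((r y : GL (Fin 2) k) : Matrix (Fin 2) (Fin 2) k) with hB
      have hAdet : A.det ≠ 0 := by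
        have := Matrix.GeneralLinearGroup.det_ne_zero (r x)
        simpa using this
      have hBdet : B.det ≠ 0 := by
        have := Matrix.GeneralLinearGroup.det_ne_zero (r y)
        simpa using this
      rw [Matrix.det_fin_two, hx', mul_zero, sub_zero] at hAdet
      rw [Matrix.det_fin_two, hy', zero_mul, sub_zero] at hBdet
      refine ⟨x * y, ?_, ?_⟩
      · rw [map_mul, Units.val_mul, Matrix.mul_apply, Fin.sum_univ_two, ← hA, ← hB, hy', mul_zero,
          zero_add]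
        exact mul_ne_zero hx (right_ne_zero_of_mul hBdet)
      · rw [map_mul, Units.val_mul, Matrix.mul_apply, Fin.sum_univ_two, ← hA, ← hB, hx', zero_mul,
          zero_add]
        exact mul_ne_zero (right_ne_zero_of_mul hAdet) hy
    · exact ⟨y, hy', hy⟩
  · exact ⟨x, hx, hx'⟩

/-- **BD-lite, entry form.** -/
theorem exists_conj_entries_mem (E : Subfield k) (r : G →* GL (Fin 2) k) (m : ℕ) [NeZero m]
    (hm : ∀ g : G, g ^ m = 1) (ζ : k) (hζ : IsPrimitiveRoot ζ m) (hζE : ζ ∈ E) :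
    ∃ P : GL (Fin 2) k, ∀ g a b,
      ((P * r g * P⁻¹ : GL (Fin 2) k) : Matrix (Fin 2) (Fin 2) k) a b ∈ E := by
  have hmk : (m : k) ≠ 0 := (hζ.neZero').ne
  have hpowE : ∀ a : ℕ, ζ ^ a ∈ E := fun a => E.pow_mem hζE a
  by_cases hsc : ∀ g, ∃ c : k, ((r g : GL (Fin 2) k) : Matrix (Fin 2) (Fin 2) k) =
      Matrix.diagonal ![c, c]
  · -- all scalar
    refine ⟨1, fun g a b => ?_⟩
    rw [one_mul, inv_one, mul_one]
    obtain ⟨c, hc⟩ := hsc g
    have hcE : c ∈ E := by
      have hpow : ((r g : GL (Fin 2) k) : Matrix (Fin 2) (Fin 2) k) ^ m = 1 := by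
        rw [← Units.val_pow_eq_pow_val, ← map_pow, hm, map_one, Units.val_one]
      rw [hc, Matrix.diagonal_pow] at hpow
      have h00 := congrFun (congrFun hpow 0) 0
      simp only [Matrix.diagonal_apply_eq, Pi.pow_apply, Matrix.cons_val_zero,
        Matrix.one_apply_eq] at h00
      obtain ⟨j, -, hj⟩ := hζ.eq_pow_of_pow_eq_one h00
      rw [← hj]
      exact hpowE j
    rw [hc]
    fin_cases a <;> fin_cases b <;> simp [hcE, E.zero_mem]
  · -- a non-scalar element
    have hsc' : ∃ g, ¬ ∃ c : k, ((r g : GL (Fin 2) k) : Matrix (Fin 2) (Fin 2) k) =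
        Matrix.diagonal ![c, c] := by
      by_contra hcon
      apply hsc
      intro g
      by_contra hg
      exact hcon ⟨g, hg⟩
    obtain ⟨g₀, hg₀⟩ := hsc'
    have hpow₀ : ((r g₀ : GL (Fin 2) k) : Matrix (Fin 2) (Fin 2) k) ^ m = 1 := by
      rw [← Units.val_pow_eq_pow_val, ← map_pow, hm, map_one, Units.val_one]
    obtain ⟨P₁, a₀, b₀, hP₁⟩ := Mat2.exists_conj_diagonal_of_pow_eq_one _ m ζ hζ hpow₀
    have hne : ζ ^ a₀ ≠ ζ ^ b₀ := by
      intro heq
      apply hg₀
      refine ⟨ζ ^ a₀, ?_⟩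
      rw [← heq] at hP₁
      -- `P₁ M P₁⁻¹ = scalar` implies `M = scalar`
      have hscal : Matrix.diagonal ![ζ ^ a₀, ζ ^ a₀] =
          (ζ ^ a₀) • (1 : Matrix (Fin 2) (Fin 2) k) := by
        ext i j
        fin_cases i <;> fin_cases j <;> simp
      have h1 : ((P₁⁻¹ : GL (Fin 2) k) : Matrix (Fin 2) (Fin 2) k) *
          (P₁ : Matrix (Fin 2) (Fin 2) k) = 1 := by
        rw [← Units.val_mul, inv_mul_cancel, Units.val_one]
      calc ((r g₀ : GL (Fin 2) k) : Matrix (Fin 2) (Fin 2) k)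
          = ((P₁⁻¹ : GL (Fin 2) k) : Matrix (Fin 2) (Fin 2) k) *
              ((P₁ : Matrix (Fin 2) (Fin 2) k) *
                ((r g₀ : GL (Fin 2) k) : Matrix (Fin 2) (Fin 2) k) *
                  ((P₁⁻¹ : GL (Fin 2) k) : Matrix (Fin 2) (Fin 2) k)) *
                (P₁ : Matrix (Fin 2) (Fin 2) k) := by
            simp only [mul_assoc]
            rw [h1, mul_one, ← mul_assoc, h1, one_mul]
        _ = Matrix.diagonal ![ζ ^ a₀, ζ ^ a₀] := by
            rw [hP₁, hscal, mul_smul_comm, mul_one, smul_mul_assoc, h1]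
    -- replace `r` by its conjugate `r₁`
    set r₁ : G →* GL (Fin 2) k := conjHom P₁ r with hr₁
    have hr₁g₀ : ((r₁ g₀ : GL (Fin 2) k) : Matrix (Fin 2) (Fin 2) k) =
        Matrix.diagonal ![ζ ^ a₀, ζ ^ b₀] := by
      rw [hr₁, conjHom_apply, Units.val_mul, Units.val_mul]
      exact hP₁
    have htd₁ : TraceDetIn E r₁ := traceDetIn_of_exponent E r₁ m hm ζ hζ hζE
    have hd0 : (![ζ ^ a₀, ζ ^ b₀] : Fin 2 → k) 0 ∈ E := hpowE a₀
    have hd1 : (![ζ ^ a₀, ζ ^ b₀] : Fin 2 → k) 1 ∈ E := hpowE b₀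
    have hne01 : (![ζ ^ a₀, ζ ^ b₀] : Fin 2 → k) 0 ≠ (![ζ ^ a₀, ζ ^ b₀] : Fin 2 → k) 1 := hne
    suffices hsuff : ∃ Q : GL (Fin 2) k, ∀ g a b,
        ((Q * r₁ g * Q⁻¹ : GL (Fin 2) k) : Matrix (Fin 2) (Fin 2) k) a b ∈ E by
      obtain ⟨Q, hQ⟩ := hsuff
      refine ⟨Q * P₁, fun g a b => ?_⟩
      have := hQ g a b
      rw [hr₁, conjHom_apply] at this
      have e : Q * P₁ * r g * (Q * P₁)⁻¹ = Q * (P₁ * r g * P₁⁻¹) * Q⁻¹ := by
        rw [_root_.mul_inv_rev]; simp only [mul_assoc]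
      rw [e]
      exact this
    by_cases h01 : ∀ g, ((r₁ g : GL (Fin 2) k) : Matrix (Fin 2) (Fin 2) k) 0 1 = 0
    · -- lower triangular, hence diagonal
      have h10 : ∀ g, ((r₁ g : GL (Fin 2) k) : Matrix (Fin 2) (Fin 2) k) 1 0 = 0 :=
        offdiag_eq_zero m hmk hm hr₁g₀ (a := 0) (b := 1) (by decide) hne01 h01
      refine ⟨1, fun g a b => ?_⟩
      rw [one_mul, inv_one, mul_one]
      obtain ⟨h00, h11⟩ := diag_mem htd₁ hr₁g₀ hd0 hd1 hne01 g
      fin_cases a <;> fin_cases b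
      · exact h00
      · show ((r₁ g : GL (Fin 2) k) : Matrix (Fin 2) (Fin 2) k) 0 1 ∈ E
        rw [h01 g]; exact E.zero_mem
      · show ((r₁ g : GL (Fin 2) k) : Matrix (Fin 2) (Fin 2) k) 1 0 ∈ E
        rw [h10 g]; exact E.zero_mem
      · exact h11
    · by_cases h10 : ∀ g, ((r₁ g : GL (Fin 2) k) : Matrix (Fin 2) (Fin 2) k) 1 0 = 0
      · -- upper triangular, hence diagonal: contradiction with `h01`
        exact absurd
          (offdiag_eq_zero m hmk hm hr₁g₀ (a := 1) (b := 0) (by decide) (Ne.symm hne01) h10) h01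
      · -- generic case
        have e01 : ∃ g, ((r₁ g : GL (Fin 2) k) : Matrix (Fin 2) (Fin 2) k) 0 1 ≠ 0 := by
          by_contra hcon
          apply h01
          intro g
          by_contra hg
          exact hcon ⟨g, hg⟩
        have e10 : ∃ g, ((r₁ g : GL (Fin 2) k) : Matrix (Fin 2) (Fin 2) k) 1 0 ≠ 0 := by
          by_contra hcon
          apply h10
          intro g
          by_contra hg
          exact hcon ⟨g, hg⟩
        obtain ⟨h₀, hh01, hh10⟩ := exists_both_offdiag e01 e10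
        set t : k := ((r₁ h₀ : GL (Fin 2) k) : Matrix (Fin 2) (Fin 2) k) 0 1 with ht
        have hδ : ∀ i, (![1, t] : Fin 2 → k) i ≠ 0 := by
          intro i
          fin_cases i
          · exact one_ne_zero
          · exact hh01
        have hDdet : (Matrix.diagonal (![1, t] : Fin 2 → k)).det ≠ 0 := by
          rw [Matrix.det_diagonal, Fin.prod_univ_two]
          exact mul_ne_zero (hδ 0) (hδ 1)
        set Q : GL (Fin 2) k := Matrix.GeneralLinearGroup.mkOfDetNeZero _ hDdet with hQ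
        have hQval : (Q : Matrix (Fin 2) (Fin 2) k) = Matrix.diagonal (![1, t] : Fin 2 → k) := rfl
        set r₂ : G →* GL (Fin 2) k := conjHom Q r₁ with hr₂
        have hentry : ∀ g a b, ((r₂ g : GL (Fin 2) k) : Matrix (Fin 2) (Fin 2) k) a b =
            (![1, t] : Fin 2 → k) a * ((r₁ g : GL (Fin 2) k) : Matrix (Fin 2) (Fin 2) k) a b /
              (![1, t] : Fin 2 → k) b := by
          intro g a b
          rw [hr₂, conjHom_apply]
          exact conj_diagonal_apply Q hQval hδ _ a b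
        have hr₂g₀ : ((r₂ g₀ : GL (Fin 2) k) : Matrix (Fin 2) (Fin 2) k) =
            Matrix.diagonal ![ζ ^ a₀, ζ ^ b₀] := by
          ext a b
          rw [hentry, hr₁g₀]
          by_cases hab : a = b
          · subst hab
            rw [Matrix.diagonal_apply_eq, mul_div_assoc, mul_comm, div_mul_cancel₀ _ (hδ a)]
          · rw [Matrix.diagonal_apply_ne _ hab, mul_zero, zero_div]
        have htd₂ : TraceDetIn E r₂ := traceDetIn_of_exponent E r₂ m hm ζ hζ hζE
        have hn01 : ((r₂ h₀ : GL (Fin 2) k) : Matrix (Fin 2) (Fin 2) k) 0 1 = 1 := by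
          rw [hentry]
          simp only [Matrix.cons_val_zero, Matrix.cons_val_one, one_mul]
          exact div_self hh01
        have hn10 : ((r₂ h₀ : GL (Fin 2) k) : Matrix (Fin 2) (Fin 2) k) 1 0 ≠ 0 := by
          rw [hentry]
          simp only [Matrix.cons_val_zero, Matrix.cons_val_one, div_one]
          exact mul_ne_zero hh01 hh10
        refine ⟨Q, fun g a b => ?_⟩
        have := entries_mem_of_normalised htd₂ hr₂g₀ hd0 hd1 hne01 hn01 hn10 g a b
        rw [hr₂, conjHom_apply] at this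
        exact this

/-! ### From entries to a homomorphism over the small field -/

theorem exists_hom_of_entries_mem {F : Type*} [Field F] (i : F →+* k) (ρ : G →* GL (Fin 2) k)
    (h : ∀ g a b, ((ρ g : GL (Fin 2) k) : Matrix (Fin 2) (Fin 2) k) a b ∈ i.fieldRange) :
    ∃ r0 : G →* GL (Fin 2) F, ∀ g, ρ g = Matrix.GeneralLinearGroup.map i (r0 g) := by
  choose f hf using h
  have hinj : Function.Injective fun M : Matrix (Fin 2) (Fin 2) F => M.map i :=
    Matrix.map_injective i.injective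
  have hmap : ∀ g, (Matrix.of (f g)).map i =
      ((ρ g : GL (Fin 2) k) : Matrix (Fin 2) (Fin 2) k) := by
    intro g
    ext a b
    rw [Matrix.map_apply, Matrix.of_apply, hf]
  let hom₀ : G →* Matrix (Fin 2) (Fin 2) F :=
    { toFun := fun g => Matrix.of (f g)
      map_one' := by
        apply hinj
        show (Matrix.of (f 1)).map i = (1 : Matrix (Fin 2) (Fin 2) F).map i
        rw [hmap, map_one, Units.val_one, Matrix.map_one _ (map_zero i) (map_one i)]
      map_mul' := by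
        intro x y
        apply hinj
        show (Matrix.of (f (x * y))).map i = (Matrix.of (f x) * Matrix.of (f y)).map i
        rw [Matrix.map_mul, hmap, hmap, hmap, map_mul, Units.val_mul] }
  refine ⟨hom₀.toHomUnits, fun g => ?_⟩
  apply Units.ext
  show ((ρ g : GL (Fin 2) k) : Matrix (Fin 2) (Fin 2) k) =
    ((hom₀.toHomUnits g : GL (Fin 2) F) : Matrix (Fin 2) (Fin 2) F).map i
  rw [MonoidHom.coe_toHomUnits]
  exact (hmap g).symm

/-- **BD-lite.**  A group of exponent `m` in `GL₂(k)` is conjugate into `GL₂(F)` as soon as `F`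
contains a primitive `m`-th root of unity. -/
theorem exists_conj_map' {F : Type*} [Field F] (i : F →+* k) (r : G →* GL (Fin 2) k) (m : ℕ)
    [NeZero m] (hm : ∀ g : G, g ^ m = 1) (z : F) (hz : IsPrimitiveRoot z m) :
    ∃ (P : GL (Fin 2) k) (r0 : G →* GL (Fin 2) F),
      ∀ g, P * r g * P⁻¹ = Matrix.GeneralLinearGroup.map i (r0 g) := by
  obtain ⟨P, hP⟩ := exists_conj_entries_mem i.fieldRange r m hm (i z)
    (hz.map_of_injective i.injective) (RingHom.mem_fieldRange_self i z)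
  obtain ⟨r0, hr0⟩ := exists_hom_of_entries_mem i (conjHom P r) hP
  exact ⟨P, r0, hr0⟩

/-- **BD-lite**, with the signature requested by the assembly (finiteness of `G` is not used). -/
theorem exists_conj_map {k F : Type*} [Field k] [Field F] (i : F →+* k) {G : Type*} [Group G]
    [Finite G] (r : G →* GL (Fin 2) k) (m : ℕ) [NeZero m] (hm : ∀ g : G, g ^ m = 1) (z : F)
    (hz : IsPrimitiveRoot z m) :
    ∃ (P : GL (Fin 2) k) (r0 : G →* GL (Fin 2) F),
      ∀ g, P * r g * P⁻¹ = Matrix.GeneralLinearGroup.map i (r0 g) :=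
  exists_conj_map' i r m hm z hz

end Fermat.Agent.DS.Lift.BDLite
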