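/-
Programme DS (S48), brick B5' (DS-LIFT): the unconditional statement.

A finite group `G` with `#G ∣ ℓ - 1` inside `GL₂(k)`, `k` a field of characteristic `ℓ`, lifts to
`GL₂(ℂ)` compatibly with a given residue map `φ : ℤ̄ → k` on traces and determinants, and
faithfully on kernels.
-/
import Mathlib
import Fermat.Agent.DS.Lift.Main
import Fermat.Agent.DS.Lift.BDLite

set_option autoImplicit false

namespace Fermat.Agent.DS.Lift.Final

open Fermat.Agent.DS.Lift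

local notation "ℤbar" => integralClosure ℤ ℂ

/-- **B5' (prime-to-`ℓ` lifting, D–S §8).** -/
theorem primeToEllLift (ℓ : ℕ) (hℓ : ℓ.Prime) {k : Type*} [Field k] [CharP k ℓ]
    (φ : ℤbar →+* k) {G : Type*} [Group G] [Finite G] (hdvd : Nat.card G ∣ ℓ - 1)
    (r : G →* GL (Fin 2) k) :
    ∃ R : G →* GL (Fin 2) ℂ, (∀ g, R g = 1 ↔ r g = 1) ∧
      ∀ g, ∃ t d : ℤbar,
        ((R g : GL (Fin 2) ℂ) : Matrix (Fin 2) (Fin 2) ℂ).trace = (t : ℂ) ∧
        ((R g : GL (Fin 2) ℂ) : Matrix (Fin 2) (Fin 2) ℂ).det = (d : ℂ) ∧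
        ((r g : GL (Fin 2) k) : Matrix (Fin 2) (Fin 2) k).trace = φ t ∧
        ((r g : GL (Fin 2) k) : Matrix (Fin 2) (Fin 2) k).det = φ d := by
  have : Fact ℓ.Prime := ⟨hℓ⟩
  have hmpos : 0 < Nat.card G := Nat.card_pos
  have : NeZero (Nat.card G) := ⟨hmpos.ne'⟩
  obtain ⟨z1, hz1⟩ := Hensel.exists_primitiveRoot_zmod ℓ (Nat.card G) hdvd
  have hBD := BDLite.exists_conj_map (ZMod.castHom (dvd_refl ℓ) k) r (Nat.card G)
    (fun g => pow_card_eq_one') z1 hz1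
  exact Main.primeToEllLift_of_conj ℓ φ hdvd r hBD

/-- The shape of `Iface.PrimeToEllLift`, with the hypothesis `#G ∣ ℓ - 1` (version used by the
assembly). -/
theorem primeToEllLift' :
    ∀ (ℓ : ℕ) (_ : ℓ.Prime) (k : Type) [Field k] [CharP k ℓ] (φ : ℤbar →+* k)
      (G : Type) [Group G] [Finite G] (_ : Nat.card G ∣ ℓ - 1) (r : G →* GL (Fin 2) k),
      ∃ R : G →* GL (Fin 2) ℂ, (∀ g : G, R g = 1 ↔ r g = 1) ∧
        ∀ g : G, ∃ t d : ℤbar,
          ((R g : GL (Fin 2) ℂ) : Matrix (Fin 2) (Fin 2) ℂ).trace = (t : ℂ) ∧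
          ((R g : GL (Fin 2) ℂ) : Matrix (Fin 2) (Fin 2) ℂ).det = (d : ℂ) ∧
          ((r g : GL (Fin 2) k) : Matrix (Fin 2) (Fin 2) k).trace = φ t ∧
          ((r g : GL (Fin 2) k) : Matrix (Fin 2) (Fin 2) k).det = φ d :=
  fun ℓ hℓ _ _ _ φ _ _ _ hdvd r => primeToEllLift ℓ hℓ φ hdvd r

end Fermat.Agent.DS.Lift.Final
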