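/-
Programme DS (S48), brick H2: pigeonhole over infinitely many residue characteristics.

* a nonzero algebraic integer is killed by residue maps `φ : ℤ̄ → k` only for finitely many
  characteristics;
* an element (or pair) of `ℤ̄` congruent to elements of a fixed finite set modulo infinitely
  many primes belongs to the finite set;
* a residue map is injective on a given finite set for almost all characteristics.
-/
import Mathlib

set_option autoImplicit false

namespace Fermat.Agent.DS.Lift.Pigeon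

open Polynomial

local notation "ℤbar" => integralClosure ℤ ℂ

/-- A nonzero element of a domain which is a root of a nonzero integer polynomial divides a
nonzero integer. -/
theorem exists_mul_eq_int {R : Type*} [CommRing R] [IsDomain R] (x : R) (hx : x ≠ 0) :
    ∀ (n : ℕ) (p : ℤ[X]), p.natDegree = n → p ≠ 0 → Polynomial.aeval x p = 0 →
      ∃ c : ℤ, c ≠ 0 ∧ ∃ y : R, x * y = (c : R) := by
  intro n
  induction n using Nat.strong_induction_on with
  | _ n ih =>
    intro p hn hp hpx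
    have hdecomp := Polynomial.X_mul_divX_add p
    by_cases hc : p.coeff 0 = 0
    · -- divide by `X`
      rw [hc, C_0, add_zero] at hdecomp
      have hq0 : p.divX ≠ 0 := by
        intro h
        rw [h, mul_zero] at hdecomp
        exact hp hdecomp.symm
      have hqx : Polynomial.aeval x p.divX = 0 := by
        rw [← hdecomp, map_mul, aeval_X] at hpx
        exact (mul_eq_zero.mp hpx).resolve_left hx
      have hdeg : p.divX.natDegree < n := by
        have h1 : p.natDegree = p.divX.natDegree + 1 := by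
          conv_lhs => rw [← hdecomp]
          exact natDegree_X_mul hq0
        omega
      exact ih _ hdeg p.divX rfl hq0 hqx
    · refine ⟨p.coeff 0, hc, -(Polynomial.aeval x p.divX), ?_⟩
      rw [← hdecomp, map_add, map_mul, aeval_X, aeval_C] at hpx
      have : (algebraMap ℤ R) (p.coeff 0) = ((p.coeff 0 : ℤ) : R) := rfl
      rw [this] at hpx
      linear_combination -hpx

/-- **Norm lemma.** A nonzero algebraic integer `x` has a nonzero integer `N` such that any
residue map killing `x` has residue characteristic dividing `N`. -/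
theorem exists_nat_of_ne_zero (x : ℤbar) (hx : x ≠ 0) :
    ∃ N : ℕ, N ≠ 0 ∧ ∀ (ℓ : ℕ) (k : Type*) [Field k] [CharP k ℓ] (φ : ℤbar →+* k),
      φ x = 0 → ℓ ∣ N := by
  have hint : IsIntegral ℤ x := integralClosure.isIntegral x
  obtain ⟨p, hpm, hp⟩ := hint
  rw [← Polynomial.aeval_def] at hp
  obtain ⟨c, hc, y, hy⟩ := exists_mul_eq_int x hx _ p rfl hpm.ne_zero hp
  refine ⟨c.natAbs, Int.natAbs_ne_zero.mpr hc, fun ℓ k _ _ φ hφ => ?_⟩
  have h1 : φ ((c : ℤbar)) = 0 := by rw [← hy, map_mul, hφ, zero_mul]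
  rw [map_intCast, CharP.intCast_eq_zero_iff k ℓ] at h1
  exact Int.natCast_dvd.mp h1

universe u

/-- Two distinct pairs of algebraic integers are congruent only modulo finitely many primes. -/
theorem exists_nat_of_pair_ne (x y : ℤbar × ℤbar) (hxy : x ≠ y) :
    ∃ N : ℕ, N ≠ 0 ∧ ∀ (ℓ : ℕ) (k : Type u) [Field k] [CharP k ℓ] (φ : ℤbar →+* k),
      φ x.1 = φ y.1 → φ x.2 = φ y.2 → ℓ ∣ N := by
  by_cases h1 : x.1 = y.1
  · have h2 : x.2 - y.2 ≠ 0 := by
      intro h
      exact hxy (Prod.ext h1 (sub_eq_zero.mp h))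
    obtain ⟨N, hN0, hN⟩ := exists_nat_of_ne_zero.{u} (x.2 - y.2) h2
    exact ⟨N, hN0, fun ℓ k _ _ φ _ e2 => hN ℓ k φ (by rw [map_sub, e2, sub_self])⟩
  · have h2 : x.1 - y.1 ≠ 0 := sub_ne_zero.mpr h1
    obtain ⟨N, hN0, hN⟩ := exists_nat_of_ne_zero.{u} (x.1 - y.1) h2
    exact ⟨N, hN0, fun ℓ k _ _ φ e1 _ => hN ℓ k φ (by rw [map_sub, e1, sub_self])⟩

/-- **Pigeonhole over infinitely many primes.**  If a pair of algebraic integers is congruent,
modulo infinitely many residue characteristics, to elements of a fixed finite set `Y`, then it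
belongs to `Y`. -/
theorem mem_of_infinite_congr (Y : Finset (ℤbar × ℤbar)) (x : ℤbar × ℤbar) (S : Set ℕ)
    (hS : S.Infinite)
    (h : ∀ ℓ ∈ S, ∃ (k : Type u) (_ : Field k) (_ : CharP k ℓ) (φ : ℤbar →+* k),
      ∃ y ∈ Y, φ x.1 = φ y.1 ∧ φ x.2 = φ y.2) : x ∈ Y := by
  classical
  by_contra hx
  have hne : ∀ y ∈ Y, x ≠ y := fun y hy hxy => hx (hxy ▸ hy)
  have hex : ∀ y : ℤbar × ℤbar, ∃ N : ℕ, y ∈ Y → (N ≠ 0 ∧
      ∀ (ℓ : ℕ) (k : Type u) [Field k] [CharP k ℓ] (φ : ℤbar →+* k),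
        φ x.1 = φ y.1 → φ x.2 = φ y.2 → ℓ ∣ N) := by
    intro y
    by_cases hy : y ∈ Y
    · obtain ⟨N, hN⟩ := exists_nat_of_pair_ne.{u} x y (hne y hy)
      exact ⟨N, fun _ => hN⟩
    · exact ⟨1, fun h => absurd h hy⟩
  choose N hN using hex
  set Ntot : ℕ := ∏ y ∈ Y, N y with hNtot
  have hNtot0 : Ntot ≠ 0 := Finset.prod_ne_zero_iff.mpr fun y hy => (hN y hy).1
  apply hS
  apply Set.Finite.subset (Nat.divisors Ntot).finite_toSet
  intro ℓ hℓ
  obtain ⟨k, hk1, hk2, φ, y, hy, e1, e2⟩ := h ℓ hℓ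
  have hdvd : ℓ ∣ N y := (hN y hy).2 ℓ k φ e1 e2
  have : ℓ ∣ Ntot := dvd_trans hdvd (Finset.dvd_prod_of_mem N hy)
  simpa [Nat.mem_divisors, hNtot0] using this

/-- **Injectivity for almost all primes.**  A residue map is injective on a given finite set of
pairs of algebraic integers as soon as its residue characteristic avoids finitely many primes. -/
theorem exists_nat_injOn (Y : Finset (ℤbar × ℤbar)) :
    ∃ N : ℕ, N ≠ 0 ∧ ∀ (ℓ : ℕ) (k : Type u) [Field k] [CharP k ℓ] (φ : ℤbar →+* k),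
      ¬ ℓ ∣ N → ∀ y ∈ Y, ∀ y' ∈ Y, φ y.1 = φ y'.1 → φ y.2 = φ y'.2 → y = y' := by
  classical
  have hex : ∀ yy : (ℤbar × ℤbar) × (ℤbar × ℤbar), ∃ N : ℕ, yy.1 ≠ yy.2 → (N ≠ 0 ∧
      ∀ (ℓ : ℕ) (k : Type u) [Field k] [CharP k ℓ] (φ : ℤbar →+* k),
        φ yy.1.1 = φ yy.2.1 → φ yy.1.2 = φ yy.2.2 → ℓ ∣ N) := by
    intro yy
    by_cases hy : yy.1 = yy.2
    · exact ⟨1, fun h => absurd hy h⟩
    · obtain ⟨N, hN⟩ := exists_nat_of_pair_ne.{u} yy.1 yy.2 hy
      exact ⟨N, fun _ => hN⟩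
  choose N hN using hex
  set T : Finset ((ℤbar × ℤbar) × (ℤbar × ℤbar)) := (Y ×ˢ Y).filter (fun yy => yy.1 ≠ yy.2)
    with hT
  refine ⟨∏ yy ∈ T, N yy, ?_, ?_⟩
  · exact Finset.prod_ne_zero_iff.mpr fun yy hyy => (hN yy (Finset.mem_filter.mp hyy).2).1
  · intro ℓ k _ _ φ hℓ y hy y' hy' e1 e2
    by_contra hne
    have hmem : (y, y') ∈ T := by
      rw [hT, Finset.mem_filter, Finset.mem_product]
      exact ⟨⟨hy, hy'⟩, hne⟩
    have hdvd : ℓ ∣ N (y, y') := (hN (y, y') hne).2 ℓ k φ e1 e2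
    exact hℓ (dvd_trans hdvd (Finset.dvd_prod_of_mem N hmem))

end Fermat.Agent.DS.Lift.Pigeon
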