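/-
Programme DS (S48), brick H2 (continued): the finite set `Y_D` of (trace, determinant) pairs of
`2 × 2` matrices whose eigenvalues are `D`-th roots of unity.
-/
import Mathlib
import Fermat.Agent.DS.Lift.Main
import Fermat.Agent.DS.Lift.Pigeon

set_option autoImplicit false

namespace Fermat.Agent.DS.Lift.YSet

open Polynomial Matrix Fermat.Agent.DS.Lift

local notation "ℤbar" => integralClosure ℤ ℂ

/-- The standard primitive `D`-th root of unity, as an algebraic integer. -/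
noncomputable def zetaBar (D : ℕ) [NeZero D] : ℤbar :=
  ⟨Complex.exp (2 * Real.pi * Complex.I / D),
    (Complex.isPrimitiveRoot_exp D (NeZero.ne D)).isIntegral (Nat.pos_of_ne_zero (NeZero.ne D))⟩

theorem coe_zetaBar (D : ℕ) [NeZero D] :
    ((zetaBar D : ℤbar) : ℂ) = Complex.exp (2 * Real.pi * Complex.I / D) := rfl

theorem isPrimitiveRoot_zetaBar (D : ℕ) [NeZero D] : IsPrimitiveRoot (zetaBar D) D :=
  IsPrimitiveRoot.of_map_of_injective (f := (integralClosure ℤ ℂ).val)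
    (Complex.isPrimitiveRoot_exp D (NeZero.ne D)) Subtype.coe_injective

/-- The finite set of (trace, determinant) pairs with eigenvalues `D`-th roots of unity. -/
noncomputable def Yset (D : ℕ) [NeZero D] : Finset (ℤbar × ℤbar) :=
  (Finset.range D ×ˢ Finset.range D).image
    (fun ab : ℕ × ℕ => (zetaBar D ^ ab.1 + zetaBar D ^ ab.2, zetaBar D ^ ab.1 * zetaBar D ^ ab.2))

theorem mem_Yset (D : ℕ) [NeZero D] (a b : ℕ) :
    (zetaBar D ^ a + zetaBar D ^ b, zetaBar D ^ a * zetaBar D ^ b) ∈ Yset D := by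
  have hD : 0 < D := Nat.pos_of_ne_zero (NeZero.ne D)
  have h1 := (isPrimitiveRoot_zetaBar D).pow_eq_one
  rw [Yset, Finset.mem_image]
  refine ⟨(a % D, b % D), ?_, ?_⟩
  · rw [Finset.mem_product, Finset.mem_range, Finset.mem_range]
    exact ⟨Nat.mod_lt _ hD, Nat.mod_lt _ hD⟩
  · simp only
    rw [← pow_eq_pow_mod a h1, ← pow_eq_pow_mod b h1]

/-- **Finite-order elements have (trace, det) in the image of `Y_D`.** -/
theorem exists_mem_Yset_of_pow_eq_one {k : Type*} [Field k] (φ : ℤbar →+* k) (D : ℕ) [NeZero D]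
    (hD : (D : k) ≠ 0) (M : Matrix (Fin 2) (Fin 2) k) (hM : M ^ D = 1) :
    ∃ y ∈ Yset D, M.trace = φ y.1 ∧ M.det = φ y.2 := by
  have hprim : IsPrimitiveRoot (φ (zetaBar D)) D :=
    Main.isPrimitiveRoot_map φ D hD (zetaBar D) (isPrimitiveRoot_zetaBar D)
  obtain ⟨a, b, hab⟩ := Mat2.charpoly_eq_of_pow_eq_one M D _ hprim hM
  obtain ⟨htr, hdet⟩ := Main.trace_det_of_charpoly M _ _ hab
  refine ⟨_, mem_Yset D a b, ?_, ?_⟩
  · rw [htr, map_add, map_pow, map_pow]
  · rw [hdet, map_mul, map_pow, map_pow]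

/-- Complex version. -/
theorem exists_mem_Yset_complex (D : ℕ) [NeZero D] (M : Matrix (Fin 2) (Fin 2) ℂ)
    (hM : M ^ D = 1) : ∃ y ∈ Yset D, M.trace = (y.1 : ℂ) ∧ M.det = (y.2 : ℂ) := by
  have hD : ((D : ℕ) : ℂ) ≠ 0 := Nat.cast_ne_zero.mpr (NeZero.ne D)
  exact exists_mem_Yset_of_pow_eq_one (algebraMap ℤbar ℂ) D hD M hM

/-- If the reduction of `ζ_D` lies in the prime field, then `D ∣ ℓ - 1`. -/
theorem dvd_sub_one_of_zetaBar_mem (ℓ : ℕ) [Fact ℓ.Prime] {k : Type*} [Field k] [CharP k ℓ]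
    (φ : ℤbar →+* k) (D : ℕ) [NeZero D] (hD : (D : k) ≠ 0) (z0 : ZMod ℓ)
    (hz0 : ZMod.castHom (dvd_refl ℓ) k z0 = φ (zetaBar D)) : D ∣ ℓ - 1 := by
  have hprim : IsPrimitiveRoot (φ (zetaBar D)) D :=
    Main.isPrimitiveRoot_map φ D hD (zetaBar D) (isPrimitiveRoot_zetaBar D)
  rw [← hz0] at hprim
  have hz0prim : IsPrimitiveRoot z0 D :=
    IsPrimitiveRoot.of_map_of_injective hprim (ZMod.castHom (dvd_refl ℓ) k).injective
  have hz0ne : z0 ≠ 0 := by
    rintro rfl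
    have := hz0prim.pow_eq_one
    rw [zero_pow (NeZero.ne D)] at this
    exact zero_ne_one this
  exact hz0prim.dvd_of_pow_eq_one _ (ZMod.pow_card_sub_one_eq_one hz0ne)

end Fermat.Agent.DS.Lift.YSet
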